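/-
S14 project: common definitions (no proofs of substance here).
`K` is always a `p`-th cyclotomic field, `zetaInt` the chosen primitive root in `𝓞 K`,
`eta` the cyclotomic unit in the `ω²`-eigenspace, `stickE` the operator `∑ d⁻² σ_d` on `Cl(K)/p`.
-/
import Mathlib
import Fermat.Prelude.Def_ClassGroup_GaloisAction

set_option autoImplicit false

namespace Fermat.Agent.S14

open NumberField JacobiSumStickelberger
open scoped NumberField nonZeroDivisors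

section Defs

variable (p : ℕ) [Fact p.Prime] (K : Type) [Field K] [NumberField K]
  [IsCyclotomicExtension {p} ℚ K]

/-- The automorphism `σ_d : ζ ↦ ζ ^ d` of `K`. -/
noncomputable def sig (d : (ZMod p)ˣ) : K ≃ₐ[ℚ] K := (cycloGalEquiv p K).symm d

/-- The automorphism `σ_d` on the ring of integers. -/
noncomputable def sigInt (d : (ZMod p)ˣ) : 𝓞 K ≃+* 𝓞 K := clRingAction p K d

/-- The chosen primitive `p`-th root of unity, as an algebraic integer. -/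
noncomputable def zetaInt : 𝓞 K := (IsCyclotomicExtension.zeta_spec p ℚ K).toInteger

/-- The uniformizer `π = ζ - 1` at the prime above `p`. -/
noncomputable def piInt : 𝓞 K := zetaInt p K - 1

/-- The prime ideal `(ζ - 1)` above `p`. -/
noncomputable def pp : Ideal (𝓞 K) := Ideal.span {piInt p K}

/-- The cyclotomic unit `(ζ^a - 1)/(ζ - 1) = 1 + ζ + ⋯ + ζ^(a-1)`. -/
noncomputable def cycUnit (a : ℕ) : 𝓞 K := ∑ i ∈ Finset.range a, zetaInt p K ^ i

/-- The cyclotomic unit `η = ∏_{0<a<p} ((ζ^a-1)/(ζ-1)) ^ (a^(p-3))`; it lies in the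
`ω²`-eigenspace modulo `p`-th powers. -/
noncomputable def eta : 𝓞 K := ∏ a ∈ Finset.Ioo 0 p, cycUnit p K a ^ (a ^ (p - 3))

/-- The operator `∑_d d^(p-3) σ_d = ∑_d d⁻² σ_d` on `Cl(K)/p` (it is minus the `ω²`-idempotent). -/
noncomputable def stickE : Module.End (ZMod p) (ClGalModule p (𝓞 K)) :=
  ∑ d : (ZMod p)ˣ, ((d : ZMod p) ^ (p - 3)) • clGalAction p K d

/-- The class in `Cl(K)/p` of a nonzero ideal. -/
noncomputable def clOf (P : Ideal (𝓞 K)) (hP : P ≠ ⊥) : ClGalModule p (𝓞 K) :=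
  clProj p (𝓞 K) (Additive.ofMul (ClassGroup.mk0 ⟨P, mem_nonZeroDivisors_iff_ne_zero.mpr hP⟩))

/-- A *good* prime: degree one, not above `p`, and `η` is not a `p`-th power modulo it. -/
def IsGoodPrime (P : Ideal (𝓞 K)) : Prop :=
  P.IsPrime ∧ (Ideal.absNorm P).Prime ∧ Ideal.absNorm P ≠ p ∧ ¬ ∃ x : 𝓞 K, x ^ p - eta p K ∈ P

/-- `α ∈ K` lies in the `ω²`-eigenspace of `Kˣ/Kˣᵖ`. -/
def IsEigenTwo (α : K) : Prop :=
  ∀ d : (ZMod p)ˣ, ∃ β : K, sig p K d α = α ^ ((d : ZMod p).val ^ 2) * β ^ p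

/-- `ε ∈ (𝓞 K)ˣ` lies in the `ω²`-eigenspace of `E/Eᵖ`. -/
def IsEigenTwoUnit (ε : (𝓞 K)ˣ) : Prop :=
  ∀ d : (ZMod p)ˣ, ∃ u : (𝓞 K)ˣ,
    sigInt p K d (ε : 𝓞 K) = (ε : 𝓞 K) ^ ((d : ZMod p).val ^ 2) * (u : 𝓞 K) ^ p

end Defs

/-- `M/K` is unramified at all finite primes, in the form: all inertia groups are trivial. -/
def InertiaTrivial (K M : Type) [Field K] [NumberField K] [Field M] [NumberField M]
    [Algebra K M] : Prop :=
  ∀ 𝔓 : Ideal (𝓞 M), 𝔓.IsPrime → 𝔓 ≠ ⊥ → ∀ σ : Gal(M/K), σ ∈ 𝔓.inertia Gal(M/K) → σ = 1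

end Fermat.Agent.S14
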