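/-
S14 / BR: the bridge from a non-split admissible extension `0 → ℤ/p → V → μ_p → 0` of
`G_ℚ`-modules to an everywhere unramified Kummer extension `M = K(α^{1/p})` of `K = ℚ(ζ_p)` with
`α` in the `ω²`-eigenspace.
-/
import Mathlib
import Fermat.Prelude.Def_ExtCitation_AdmissibleExtension_v2
import Fermat.Prelude.Def_ExtCitation_KummerBridge
import Fermat.Agent.S05.Inertia
import Fermat.Agent.S14.Defs
import Fermat.Agent.S14.BR.Cocycle
import Fermat.Agent.S14.BR.Kummer
import Fermat.Agent.S14.BR.Inertia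

set_option autoImplicit false

namespace Fermat.Agent.S14

open NumberField IntermediateField JacobiSumStickelberger
open Fermat.Agent.S54 ExtCitation

attribute [local instance] isAlgClosure_Qbar

local notation "Qbar" => AlgebraicClosure ℚ

namespace BR

variable {p : ℕ} [Fact p.Prime]

theorem isCyclotomicExtension_adjoin (ζ : Qbar) (hζ : IsPrimitiveRoot ζ p) :
    IsCyclotomicExtension {p} ℚ ℚ⟮ζ⟯ :=
  haveI : NeZero p := ⟨(Fact.out : p.Prime).ne_zero⟩
  hζ.intermediateField_adjoin_isCyclotomicExtension ℚ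

theorem numberField_adjoin (ζ : Qbar) : NumberField ℚ⟮ζ⟯ := by
  have h1 : FiniteDimensional ℚ ℚ⟮ζ⟯ :=
    IntermediateField.adjoin.finiteDimensional (Algebra.IsIntegral.isIntegral ζ)
  exact { to_charZero := inferInstance, to_finiteDimensional := h1 }

/-- Every `σ_d` lifts to an element of `G_ℚ` with cyclotomic character `d`. -/
theorem exists_lift_sig (K : IntermediateField ℚ Qbar) [NumberField K]
    [IsCyclotomicExtension {p} ℚ K] (d : (ZMod p)ˣ) :
    ∃ g : GQ, cycloChar p g = d ∧ ∀ x : K, g (x : Qbar) = ((sig p K d x : K) : Qbar) := by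
  have : NeZero p := ⟨(Fact.out : p.Prime).ne_zero⟩
  have hgal : IsGalois ℚ K := IsCyclotomicExtension.isGalois {p} ℚ K
  have hnorm : @Normal ℚ K _ _ (IntermediateField.algebra' K) := hgal.to_normal
  let τ : K ≃ₐ[ℚ] K := sig p K d
  obtain ⟨g, hg⟩ := AlgEquiv.restrictNormalHom_surjective (F := ℚ) (K₁ := K) Qbar τ
  have hgK : ∀ x : K, g (x : Qbar) = ((τ x : K) : Qbar) := by
    intro x
    rw [← hg]
    exact (AlgEquiv.restrictNormal_commutes g K x).symm
  refine ⟨g, ?_, hgK⟩
  have hμ := IsCyclotomicExtension.zeta_spec p ℚ K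
  have h1 : cycloGalEquiv p K τ = d := MulEquiv.apply_symm_apply _ _
  have h2 : hμ.autToPow ℚ τ = d := h1
  have h3 := hμ.autToPow_spec ℚ τ
  rw [h2] at h3
  have hμ' : IsPrimitiveRoot ((IsCyclotomicExtension.zeta p ℚ K : K) : Qbar) p :=
    hμ.map_of_injective (f := algebraMap K Qbar) (algebraMap K Qbar).injective
  apply cycloChar_eq_of_apply hμ'
  rw [hgK, ← h3]
  rfl

theorem pow_eq_pow_of_cast_eq {ζ : Qbar} (hζ : ζ ^ p = 1) {m n : ℕ}
    (h : (m : ZMod p) = (n : ZMod p)) : ζ ^ m = ζ ^ n := by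
  rw [← pow_val_natCast hζ m, ← pow_val_natCast hζ n, h]

end BR

open BR in
theorem BR_bridge {p : ℕ} [Fact p.Prime] (h3 : 3 ≤ p)
    (V : Type) [AddCommGroup V] [Module (ZMod p) V]
    [DistribMulAction (AlgebraicClosure ℚ ≃ₐ[ℚ] AlgebraicClosure ℚ) V]
    [SMulCommClass (AlgebraicClosure ℚ ≃ₐ[ℚ] AlgebraicClosure ℚ) (ZMod p) V]
    (C : Submodule (ZMod p) V) (hadm : IsAdmissibleExtensionCts p V C)
    (hns : ¬ SplitsGlobally C) :
    ∃ (K M : Type) (_ : Field K) (_ : NumberField K) (_ : IsCyclotomicExtension {p} ℚ K)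
      (_ : Field M) (_ : NumberField M) (_ : Algebra K M) (_ : IsGalois K M) (A : M) (α : K),
      InertiaTrivial K M ∧ α ≠ 0 ∧ A ^ p = algebraMap K M α ∧ IsEigenTwo p K α ∧
        ¬ ∃ β : K, α = β ^ p := by
  classical
  have hNZ : NeZero p := ⟨(Fact.out : p.Prime).ne_zero⟩
  obtain ⟨b, hb, htriv, hloc, hsplit⟩ := BR.exists_cocycle (G := GQ) (cycloChar p) C
    hadm.fixed_sub (fun σ x => by rw [coe_cycloChar]; exact hadm.cyclo_quot σ x)
    hadm.card_sub hadm.card_total
  obtain ⟨ζ, hζ⟩ : ∃ ζ : Qbar, IsPrimitiveRoot ζ p :=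
    HasEnoughRootsOfUnity.exists_primitiveRoot Qbar p
  have hζp : ζ ^ p = 1 := hζ.pow_eq_one
  have hζ0 : ζ ≠ 0 := hζ.ne_zero (NeZero.ne p)
  let K : IntermediateField ℚ Qbar := ℚ⟮ζ⟯
  have hnfK : NumberField K := numberField_adjoin ζ
  have hcyc : IsCyclotomicExtension {p} ℚ K := isCyclotomicExtension_adjoin ζ hζ
  -- a nontrivial value of the cyclotomic character
  obtain ⟨g₀, hg₀, -⟩ := exists_lift_sig K (-1 : (ZMod p)ˣ)
  have hg₀' : cycloChar p g₀ ≠ 1 := by
    rw [hg₀]
    intro h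
    have h1 : ((-1 : (ZMod p)ˣ) : ZMod p) = 1 := by rw [h, Units.val_one]
    rw [Units.val_neg, Units.val_one] at h1
    have h2 : (2 : ZMod p) = 0 := by
      have : (1 : ZMod p) + 1 = 0 := by nth_rewrite 1 [← h1]; ring
      rw [← this]; norm_num
    have h4 : ((2 : ℕ) : ZMod p) = 0 := by exact_mod_cast h2
    rw [ZMod.natCast_eq_zero_iff] at h4
    have := Nat.le_of_dvd (by norm_num) h4
    omega
  obtain ⟨s₀, hs₀, hbs₀⟩ : ∃ s₀ : GQ, cycloChar p s₀ = 1 ∧ b s₀ ≠ 0 := by
    by_contra hcon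
    push Not at hcon
    exact hns (hsplit ⟨g₀, hg₀'⟩ hcon)
  have hopen : IsOpen {σ : GQ | cycloChar p σ = 1 ∧ b σ = 0} := by
    have h1 : IsOpen ((kerSub b hb : Subgroup GQ) : Set GQ) :=
      Subgroup.isOpen_of_mem_nhds _ (g := 1)
        (Filter.mem_of_superset (hadm.open_kernel.mem_nhds (by simp))
          (fun σ hσ => htriv σ hσ))
    exact h1
  obtain ⟨A, hA0, hA⟩ := exists_kummer hb hopen hζ s₀ hs₀ hbs₀
  let H' : Subgroup GQ := kerSub b hb
  have hcl : IsClosed (H' : Set GQ) := kerSub_isClosed hb hopen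
  let M : IntermediateField ℚ Qbar := IntermediateField.fixedField H'
  have hMH : M.fixingSubgroup = H' :=
    InfiniteGalois.fixingSubgroup_fixedField (⟨H', hcl⟩ : ClosedSubgroup GQ)
  have hfdM : FiniteDimensional ℚ M :=
    (InfiniteGalois.isOpen_iff_finite M).mp (by rw [hMH]; exact hopen)
  have hnfM : NumberField M := { to_charZero := inferInstance, to_finiteDimensional := hfdM }
  have hgalM : IsGalois ℚ M :=
    (InfiniteGalois.normal_iff_isGalois M).mp (by rw [hMH]; exact kerSub_normal hb)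
  -- `K` and the kernel of the cyclotomic character
  have hKM : K ≤ M := by
    refine IntermediateField.adjoin_le_iff.mpr ?_
    intro z hz
    rw [Set.mem_singleton_iff.mp hz]
    show ζ ∈ IntermediateField.fixedField H'
    rw [IntermediateField.mem_fixedField_iff]
    intro h hh
    exact apply_eq_of_cycloChar_eq_one hh.1 hζp
  have hfixK : ∀ s : GQ, cycloChar p s = 1 → ∀ x ∈ K, s x = x := by
    intro s hs x hx
    have h1 : K ≤ IntermediateField.fixedField (cycloChar p).ker := by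
      refine IntermediateField.adjoin_le_iff.mpr ?_
      intro z hz
      rw [Set.mem_singleton_iff.mp hz]
      show ζ ∈ IntermediateField.fixedField (cycloChar p).ker
      rw [IntermediateField.mem_fixedField_iff]
      intro h hh
      exact apply_eq_of_cycloChar_eq_one (MonoidHom.mem_ker.mp hh) hζp
    have h2 := h1 hx
    rw [IntermediateField.mem_fixedField_iff] at h2
    exact h2 s (MonoidHom.mem_ker.mpr hs)
  have hχ_of_fix : ∀ s : GQ, s ζ = ζ → cycloChar p s = 1 := by
    intro s hs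
    apply cycloChar_eq_of_apply hζ
    rw [hs, Units.val_one, ZMod.val_one, pow_one]
  have hmemK : ∀ x : Qbar, (∀ s : GQ, cycloChar p s = 1 → s x = x) → x ∈ K := by
    intro x hx
    rw [← InfiniteGalois.fixedField_fixingSubgroup K, IntermediateField.mem_fixedField_iff]
    intro s hs
    apply hx
    apply hχ_of_fix
    exact (IntermediateField.mem_fixingSubgroup_iff _ _).mp hs ζ
      (IntermediateField.mem_adjoin_simple_self ℚ ζ)
  have hAM : A ∈ M := by
    show A ∈ IntermediateField.fixedField H'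
    rw [IntermediateField.mem_fixedField_iff]
    intro h hh
    rw [hA h hh.1, hh.2, ZMod.val_zero, pow_zero, one_mul]
  have hαK : A ^ p ∈ K := by
    apply hmemK
    intro s hs
    rw [map_pow, hA s hs, mul_pow, ← pow_mul, mul_comm (b s).val p, pow_mul, hζp, one_pow, one_mul]
  let algKM : Algebra K M := (IntermediateField.inclusion hKM).toRingHom.toAlgebra
  have htower : IsScalarTower ℚ K M := inferInstance
  have hgalKM : IsGalois K M := IsGalois.tower_top_of_isGalois ℚ K M
  refine ⟨K, M, inferInstance, hnfK, hcyc, inferInstance, hnfM, algKM, hgalKM, ⟨A, hAM⟩,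
    ⟨A ^ p, hαK⟩, ?_, ?_, ?_, ?_, ?_⟩
  · -- inertia
    have : H'.Normal := kerSub_normal hb
    refine inertiaTrivial_of K M hKM H' hcl rfl ?_
    intro ℓ hℓ B hB σ hσ hσK
    have hχ : cycloChar p σ = 1 :=
      hχ_of_fix σ (hσK ζ (IntermediateField.mem_adjoin_simple_self ℚ ζ))
    by_cases hℓp : ℓ = p
    · subst hℓp
      obtain ⟨C', hst, hcc⟩ := hadm.locally_split B hB
      exact ⟨hχ, hloc σ hχ ⟨C', fun x hx =>
        hst σ (Fermat.Agent.S05.mem_decomposition_of_mem_inertia B σ hσ) x hx, hcc⟩⟩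
    · exact htriv σ (hadm.unramified_outside ℓ hℓ hℓp B hB σ hσ)
  · intro h
    have h1 := congrArg Subtype.val h
    exact pow_ne_zero p hA0 h1
  · rfl
  · -- eigenspace
    intro d
    obtain ⟨g, hg, hgK⟩ := exists_lift_sig K d
    set e : ℕ := (d : ZMod p).val ^ 2 with he
    have hβK : g A / A ^ e ∈ K := by
      apply hmemK
      intro s hs
      have hc1 : cycloChar p (g⁻¹ * s * g) = 1 := by
        rw [map_mul, map_mul, hs, mul_one, map_inv, inv_mul_cancel]
      have h1 : s (g A) = g ((g⁻¹ * s * g) A) := by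
        show s (g A) = g (g⁻¹ (s (g A)))
        exact (AlgEquiv.apply_symm_apply g _).symm
      have h2 : s (g A) = ζ ^ ((d : ZMod p).val * ((d : ZMod p) * b s).val) * g A := by
        rw [h1, hA _ hc1, b_conj hb g s hs, hg, map_mul, map_pow, cycloChar_spec g hζp, hg,
          ← pow_mul]
      rw [map_div₀, map_pow, h2, hA s hs, mul_pow, ← pow_mul]
      have h4 : ζ ^ ((d : ZMod p).val * ((d : ZMod p) * b s).val) = ζ ^ ((b s).val * e) := by
        apply pow_eq_pow_of_cast_eq hζp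
        rw [he]
        push_cast
        simp only [ZMod.natCast_val, ZMod.cast_id', id]
        ring
      rw [h4]
      have h5 : ζ ^ ((b s).val * e) ≠ 0 := pow_ne_zero _ hζ0
      have h6 : A ^ e ≠ 0 := pow_ne_zero _ hA0
      field_simp
    refine ⟨⟨g A / A ^ e, hβK⟩, ?_⟩
    apply Subtype.ext
    rw [← hgK]
    show g (A ^ p) = (A ^ p) ^ e * (g A / A ^ e) ^ p
    have h6 : A ^ e ≠ 0 := pow_ne_zero _ hA0
    rw [map_pow, div_pow, ← pow_mul, ← pow_mul, mul_comm p e]
    have h7 : A ^ (e * p) ≠ 0 := pow_ne_zero _ hA0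
    field_simp
  · -- not a `p`-th power
    rintro ⟨β, hβ⟩
    have hβ' : A ^ p = (β : Qbar) ^ p := congrArg Subtype.val hβ
    have hβ0 : (β : Qbar) ≠ 0 := by
      intro h
      rw [h, zero_pow (NeZero.ne p)] at hβ'
      exact pow_ne_zero p hA0 hβ'
    have h1 : (A / (β : Qbar)) ^ p = 1 := by
      rw [div_pow, hβ', div_self (pow_ne_zero p hβ0)]
    have h2 : s₀ (A / (β : Qbar)) = A / (β : Qbar) := apply_eq_of_cycloChar_eq_one hs₀ h1
    rw [map_div₀, hfixK s₀ hs₀ β β.2, hA s₀ hs₀] at h2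
    have h4 : ζ ^ (b s₀).val = 1 := by
      have h5 : ζ ^ (b s₀).val * A = 1 * A := by
        rw [one_mul]
        exact (div_left_inj' hβ0).mp h2
      exact mul_right_cancel₀ hA0 h5
    have h6 : p ∣ (b s₀).val := (hζ.pow_eq_one_iff_dvd _).mp h4
    have h7 : (b s₀).val = 0 := Nat.eq_zero_of_dvd_of_lt h6 (ZMod.val_lt _)
    exact hbs₀ ((ZMod.val_eq_zero _).mp h7)

end Fermat.Agent.S14
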