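/-
S14, CORE_three: the case `p = 3` (`ℤ[ζ₃]` is a PID, Kummer's lemma for `p = 3` is in Mathlib).
This file only imports `Defs`; the inputs from module RAM are hypotheses of `CORE_three_aux`.
-/
import Fermat.Agent.S14.Defs

set_option autoImplicit false

namespace Fermat.Agent.S14

open NumberField JacobiSumStickelberger
open scoped NumberField nonZeroDivisors

section

variable (p : ℕ) [Fact p.Prime] (K : Type) [Field K] [NumberField K]
  [IsCyclotomicExtension {p} ℚ K]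

omit [Fact p.Prime] [IsCyclotomicExtension {p} ℚ K] in
/-- In a PID, an element generating the `n`-th power of a fractional ideal is a unit times an
`n`-th power. -/
theorem Core3.exists_unit_mul_pow_of_pid [IsPrincipalIdealRing (𝓞 K)] (n : ℕ) (α : K)
    (hsing : ∃ I : FractionalIdeal (𝓞 K)⁰ K, FractionalIdeal.spanSingleton (𝓞 K)⁰ α = I ^ n) :
    ∃ (ε : (𝓞 K)ˣ) (γ : K), α = ((ε : 𝓞 K) : K) * γ ^ n := by
  obtain ⟨I, hI⟩ := hsing
  have hprin : (I : Submodule (𝓞 K) K).IsPrincipal := FractionalIdeal.isPrincipal I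
  obtain ⟨γ, hγ⟩ := (FractionalIdeal.isPrincipal_iff I).mp hprin
  rw [hγ, FractionalIdeal.spanSingleton_pow] at hI
  obtain ⟨z, hz⟩ := FractionalIdeal.spanSingleton_eq_spanSingleton.mp hI.symm
  refine ⟨z, γ, ?_⟩
  rw [← hz, Units.smul_def, Algebra.smul_def]

/-- `CORE_three` with the inputs of module RAM as hypotheses. -/
theorem CORE_three_aux (hp3 : p = 3) (M : Type) [Field M] [Algebra K M]
    (A : M) (α : K) (hα : α ≠ 0) (hA : A ^ p = algebraMap K M α)
    (hsing : ∃ I : FractionalIdeal (𝓞 K)⁰ K, FractionalIdeal.spanSingleton (𝓞 K)⁰ α = I ^ p)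
    (hcongr : ∀ (B : M) (θ : 𝓞 K), B ^ p = algebraMap K M (θ : K) →
      ∃ m : ℤ, θ - (m : 𝓞 K) ∈ pp p K ^ 3) :
    ∃ β : K, α = β ^ p := by
  subst hp3
  have : IsPrincipalIdealRing (𝓞 K) := IsCyclotomicExtension.Rat.three_pid K
  obtain ⟨ε, γ, hεγ⟩ := Core3.exists_unit_mul_pow_of_pid K 3 α hsing
  have hγ0 : γ ≠ 0 := by
    rintro rfl
    apply hα
    rw [hεγ]; simp
  have hγM : algebraMap K M γ ≠ 0 := by
    simpa using hγ0
  -- `B = A / γ` is a cube root of `ε`
  have hB : (A / algebraMap K M γ) ^ 3 = algebraMap K M ((ε : 𝓞 K) : K) := by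
    rw [div_pow, hA, hεγ, map_mul, map_pow]
    field_simp
  obtain ⟨m, hm⟩ := hcongr (A / algebraMap K M γ) (ε : 𝓞 K) hB
  have hζ := IsCyclotomicExtension.zeta_spec 3 ℚ K
  have hcong : ∃ n : ℤ, (hζ.toInteger - 1) ^ 2 ∣ ((ε : 𝓞 K) - n : 𝓞 K) := by
    refine ⟨m, ?_⟩
    have h2 : pp 3 K ^ 3 ≤ pp 3 K ^ 2 := Ideal.pow_le_pow_right (by norm_num)
    have h3 := h2 hm
    rw [pp, Ideal.span_singleton_pow, Ideal.mem_span_singleton] at h3
    exact h3
  rcases IsCyclotomicExtension.Rat.Three.eq_one_or_neg_one_of_unit_of_congruent hζ ε hcong with h | h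
  · refine ⟨γ, ?_⟩
    rw [hεγ, h]; simp
  · refine ⟨-γ, ?_⟩
    rw [hεγ, h]; simp
    ring

end

end Fermat.Agent.S14
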