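import Fermat.Agent.S14.Defs

/-!
# S14, module RAM: consequences of unramifiedness

* `RAM_singular`: if `M/K` has trivial inertia groups and `α = A ^ p` in `M`, then `(α)` is the
  `p`-th power of a fractional ideal of `K`.
* `RAM_congr`: if moreover `θ ∈ 𝓞 K` is a `p`-th power in `M`, then `θ` is congruent to a rational
  integer modulo `(ζ - 1)³`.
-/

set_option autoImplicit false
namespace Fermat.Agent.S14
open NumberField IsDedekindDomain
open scoped NumberField nonZeroDivisors

namespace RAM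

theorem valuation_eq_exp_neg_count {R K : Type*} [CommRing R] [IsDedekindDomain R] [Field K]
    [Algebra R K] [IsFractionRing R K] (v : HeightOneSpectrum R) (x : K) (hx : x ≠ 0) :
    v.valuation K x =
      WithZero.exp (-(FractionalIdeal.count K v (FractionalIdeal.spanSingleton R⁰ x))) := by
  classical
  obtain ⟨a, b, hb, rfl⟩ := IsFractionRing.div_surjective (A := R) x
  have hb0 : b ≠ 0 := nonZeroDivisors.ne_zero hb
  have ha0 : a ≠ 0 := by
    rintro rfl
    simp at hx
  have h1 : FractionalIdeal.spanSingleton R⁰ (algebraMap R K a / algebraMap R K b)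
      = FractionalIdeal.spanSingleton R⁰ ((algebraMap R K) b)⁻¹ * ↑(Ideal.span {a}) := by
    rw [FractionalIdeal.coeIdeal_span_singleton, FractionalIdeal.spanSingleton_mul_spanSingleton,
      div_eq_inv_mul]
  rw [FractionalIdeal.count_well_defined K v (FractionalIdeal.spanSingleton_ne_zero_iff.mpr hx) h1, map_div₀,
    HeightOneSpectrum.valuation_of_algebraMap, HeightOneSpectrum.valuation_of_algebraMap,
    v.intValuation_if_neg ha0, v.intValuation_if_neg hb0, ← WithZero.exp_sub]
  congr 1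
  ring

theorem exists_eq_pow_of_dvd_count {R K : Type*} [CommRing R] [IsDedekindDomain R] [Field K]
    [Algebra R K] [IsFractionRing R K] (I : FractionalIdeal R⁰ K) (hI : I ≠ 0) (p : ℕ)
    (hp : p ≠ 0) (h : ∀ v : HeightOneSpectrum R, (p : ℤ) ∣ FractionalIdeal.count K v I) :
    ∃ J : FractionalIdeal R⁰ K, I = J ^ p := by
  choose c hc using h
  refine ⟨∏ᶠ v : HeightOneSpectrum R, (v.asIdeal : FractionalIdeal R⁰ K) ^ (c v), ?_⟩
  have hfin : (Function.mulSupport fun v : HeightOneSpectrum R =>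
      (v.asIdeal : FractionalIdeal R⁰ K) ^ (c v)).Finite := by
    have h1 := FractionalIdeal.finite_factors (K := K) I
    rw [Filter.eventually_cofinite] at h1
    refine h1.subset fun v hv => ?_
    simp only [Function.mem_mulSupport] at hv
    show ¬ FractionalIdeal.count K v I = 0
    intro h0
    apply hv
    rw [hc v] at h0
    have : c v = 0 := by
      rcases mul_eq_zero.mp h0 with h | h
      · exact absurd (by exact_mod_cast h) hp
      · exact h
    rw [this, zpow_zero]
  rw [finprod_pow hfin]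
  conv_lhs => rw [← FractionalIdeal.finprod_heightOneSpectrum_factorization' K hI]
  refine finprod_congr fun v => ?_
  rw [hc v, mul_comm, zpow_mul, zpow_natCast]


section general

variable {K M : Type} [Field K] [NumberField K] [Field M] [NumberField M] [Algebra K M]
  [IsGalois K M]

/-- Trivial inertia groups force ramification index one. -/
theorem ramificationIdx'_eq_one (hunr : InertiaTrivial K M) (v : HeightOneSpectrum (𝓞 K))
    (w : HeightOneSpectrum (𝓞 M)) [w.asIdeal.LiesOver v.asIdeal] :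
    v.asIdeal.ramificationIdx' w.asIdeal = 1 := by
  have h1 : Nat.card (w.asIdeal.inertia Gal(M/K)) = 1 := by
    rw [Nat.card_eq_one_iff_unique]
    refine ⟨⟨fun a b => Subtype.ext ?_⟩, ⟨1⟩⟩
    rw [hunr w.asIdeal w.isPrime w.ne_bot a.1 a.2, hunr w.asIdeal w.isPrime w.ne_bot b.1 b.2]
  rw [Ideal.ramificationIdx'_eq_ramificationIdx v.asIdeal w.asIdeal v.ne_bot,
    ← Ideal.ramificationIdxIn_eq_ramificationIdx v.asIdeal w.asIdeal Gal(M/K),
    ← Ideal.card_inertia_eq_ramificationIdxIn (G := Gal(M/K)) v.asIdeal w.asIdeal, h1]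

omit [NumberField K] [NumberField M] [IsGalois K M] in
/-- There is a prime of `M` above every prime of `K`. -/
theorem exists_liesOver (v : HeightOneSpectrum (𝓞 K)) :
    ∃ w : HeightOneSpectrum (𝓞 M), w.asIdeal.LiesOver v.asIdeal := by
  obtain ⟨⟨Q, hQ1, hQ2⟩⟩ := (inferInstance : Nonempty (Ideal.primesOver v.asIdeal (𝓞 M)))
  refine ⟨⟨Q, hQ1, ?_⟩, hQ2⟩
  intro h
  apply v.ne_bot
  have := hQ2.over
  rw [this, h]
  exact Ideal.under_bot _ _

theorem valuation_algebraMap (hunr : InertiaTrivial K M) (v : HeightOneSpectrum (𝓞 K))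
    (w : HeightOneSpectrum (𝓞 M)) [w.asIdeal.LiesOver v.asIdeal] (x : K) :
    w.valuation M (algebraMap K M x) = v.valuation K x := by
  rw [← HeightOneSpectrum.valuation_liesOver M v w, ramificationIdx'_eq_one hunr v w, pow_one]

theorem intValuation_algebraMap (hunr : InertiaTrivial K M) (v : HeightOneSpectrum (𝓞 K))
    (w : HeightOneSpectrum (𝓞 M)) [w.asIdeal.LiesOver v.asIdeal] (x : 𝓞 K) :
    w.intValuation (algebraMap (𝓞 K) (𝓞 M) x) = v.intValuation x := by
  rw [← HeightOneSpectrum.intValuation_liesOver v w, ramificationIdx'_eq_one hunr v w, pow_one]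

end general

end RAM

section
variable (p : ℕ) [Fact p.Prime] (K : Type) [Field K] [NumberField K]
  [IsCyclotomicExtension {p} ℚ K]

theorem RAM_singular (M : Type) [Field M] [NumberField M] [Algebra K M] [IsGalois K M]
    (hunr : InertiaTrivial K M) (A : M) (α : K) (hα : α ≠ 0) (hA : A ^ p = algebraMap K M α) :
    ∃ I : FractionalIdeal (𝓞 K)⁰ K, FractionalIdeal.spanSingleton (𝓞 K)⁰ α = I ^ p := by
  have hp : p ≠ 0 := (Fact.out : p.Prime).ne_zero
  apply RAM.exists_eq_pow_of_dvd_count _ (FractionalIdeal.spanSingleton_ne_zero_iff.mpr hα) p hp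
  intro v
  obtain ⟨w, hw⟩ := RAM.exists_liesOver (M := M) v
  have hA0 : A ≠ 0 := by
    rintro rfl
    rw [zero_pow hp] at hA
    exact hα ((map_eq_zero _).mp hA.symm)
  have h1 := RAM.valuation_algebraMap hunr v w α
  rw [← hA, map_pow, RAM.valuation_eq_exp_neg_count w A hA0, RAM.valuation_eq_exp_neg_count v α hα,
    ← WithZero.exp_nsmul, WithZero.exp_inj] at h1
  refine ⟨FractionalIdeal.count M w (FractionalIdeal.spanSingleton (𝓞 M)⁰ A), ?_⟩
  rw [nsmul_eq_mul] at h1
  linarith

namespace RAM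

/-- Every element of `𝓞 K` is congruent to an integer modulo `ζ - 1`. -/
theorem exists_int_sub_mem_pp (x : 𝓞 K) : ∃ n : ℤ, x - (n : 𝓞 K) ∈ pp p K := by
  have hζ := IsCyclotomicExtension.zeta_spec p ℚ K
  have hx : x ∈ Algebra.adjoin ℤ {hζ.toInteger} := by
    rw [IsCyclotomicExtension.Rat.adjoin_singleton_eq_top hζ]; trivial
  induction hx using Algebra.adjoin_induction with
  | mem y hy =>
    rw [Set.mem_singleton_iff] at hy
    refine ⟨1, ?_⟩
    rw [hy, Int.cast_one]
    exact Ideal.mem_span_singleton_self _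
  | algebraMap r => exact ⟨r, by simp⟩
  | add a b _ _ ha hb =>
    obtain ⟨m, hm⟩ := ha
    obtain ⟨n, hn⟩ := hb
    refine ⟨m + n, ?_⟩
    have : a + b - ((m + n : ℤ) : 𝓞 K) = (a - m) + (b - n) := by push_cast; ring
    rw [this]
    exact add_mem hm hn
  | mul a b _ _ ha hb =>
    obtain ⟨m, hm⟩ := ha
    obtain ⟨n, hn⟩ := hb
    refine ⟨m * n, ?_⟩
    have : a * b - ((m * n : ℤ) : 𝓞 K) = (a - m) * b + m * (b - n) := by push_cast; ring
    rw [this]
    exact add_mem (Ideal.mul_mem_right _ _ hm) (Ideal.mul_mem_left _ _ hn)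

theorem pp_isPrime : (pp p K).IsPrime := by
  have h := (IsCyclotomicExtension.zeta_spec p ℚ K).zeta_sub_one_prime'
  exact (Ideal.span_singleton_prime h.ne_zero).mpr h

theorem pp_ne_bot : pp p K ≠ ⊥ := by
  have h := (IsCyclotomicExtension.zeta_spec p ℚ K).zeta_sub_one_prime'
  rw [pp, Ne, Ideal.span_singleton_eq_bot]
  exact h.ne_zero

theorem natCast_mem_pp : (p : 𝓞 K) ∈ pp p K :=
  Ideal.mem_span_singleton.mpr (IsCyclotomicExtension.zeta_spec p ℚ K).toInteger_sub_one_dvd_prime'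

/-- The prime `(ζ - 1)` as a height one prime. -/
noncomputable def ppSpec : HeightOneSpectrum (𝓞 K) := ⟨pp p K, pp_isPrime p K, pp_ne_bot p K⟩

end RAM

theorem RAM_congr (hp3 : 3 ≤ p) (M : Type) [Field M] [NumberField M] [Algebra K M] [IsGalois K M]
    (hunr : InertiaTrivial K M) (B : M) (θ : 𝓞 K) (hB : B ^ p = algebraMap K M (θ : K)) :
    ∃ m : ℤ, θ - (m : 𝓞 K) ∈ pp p K ^ 3 := by
  have hpr : p.Prime := Fact.out
  have hζ := IsCyclotomicExtension.zeta_spec p ℚ K
  obtain ⟨w, hw⟩ := RAM.exists_liesOver (M := M) (RAM.ppSpec p K)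
  have hwp : w.asIdeal.IsPrime := w.isPrime
  have hmap : ∀ x ∈ pp p K, algebraMap (𝓞 K) (𝓞 M) x ∈ w.asIdeal := by
    intro x hx
    have : x ∈ w.asIdeal.under (𝓞 K) := by
      rw [← hw.over]; exact hx
    exact this
  -- `B` is integral
  have hBint : IsIntegral ℤ B := by
    refine IsIntegral.of_pow hpr.pos ?_
    rw [hB]
    exact (RingOfIntegers.isIntegral_coe θ).algebraMap
  obtain ⟨b, hb⟩ : ∃ b : 𝓞 M, (b : M) = B := ⟨⟨B, hBint⟩, rfl⟩
  have hbp : b ^ p = algebraMap (𝓞 K) (𝓞 M) θ := by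
    apply RingOfIntegers.ext
    show algebraMap (𝓞 M) M (b ^ p) = algebraMap (𝓞 M) M (algebraMap (𝓞 K) (𝓞 M) θ)
    rw [map_pow, ← IsScalarTower.algebraMap_apply (𝓞 K) (𝓞 M) M,
      IsScalarTower.algebraMap_apply (𝓞 K) K M]
    rw [show algebraMap (𝓞 M) M b = B from hb]
    exact hB
  obtain ⟨c, hc⟩ := RAM.exists_int_sub_mem_pp p K θ
  -- the residue ring
  have hchar : CharP (𝓞 M ⧸ w.asIdeal) p := by
    rw [CharP.charP_iff_prime_eq_zero hpr, ← map_natCast (Ideal.Quotient.mk w.asIdeal),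
      Ideal.Quotient.eq_zero_iff_mem]
    have := hmap _ (RAM.natCast_mem_pp p K)
    rwa [map_natCast] at this
  have hfrob : ∀ x y : 𝓞 M, x ^ p - y ^ p ∈ w.asIdeal → x - y ∈ w.asIdeal := by
    intro x y hxy
    rw [← Ideal.Quotient.eq_zero_iff_mem] at hxy ⊢
    rw [map_sub, map_pow, map_pow, ← sub_pow_char] at hxy
    rw [map_sub]
    exact pow_eq_zero_iff hpr.ne_zero |>.mp hxy
  have hcp : ((c : 𝓞 M)) ^ p - (c : 𝓞 M) ∈ w.asIdeal := by
    rw [← Ideal.Quotient.eq_zero_iff_mem, map_sub, map_pow, map_intCast, ← frobenius_def,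
      map_intCast, sub_self]
  have hbc : b - (c : 𝓞 M) ∈ w.asIdeal := by
    apply hfrob
    have h1 := hmap _ hc
    rw [map_sub, map_intCast, ← hbp] at h1
    have : b ^ p - (c : 𝓞 M) ^ p = (b ^ p - c) - ((c : 𝓞 M) ^ p - c) := by ring
    rw [this]
    exact sub_mem h1 hcp
  -- the product formula
  have hζM : IsPrimitiveRoot (algebraMap (𝓞 K) (𝓞 M) hζ.toInteger) p :=
    hζ.toInteger_isPrimitiveRoot.map_of_injective (FaithfulSMul.algebraMap_injective _ _)
  have hprod : b ^ p - (c : 𝓞 M) ^ p ∈ w.asIdeal ^ p := by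
    rw [hζM.pow_sub_pow_eq_prod_sub_mul b c hpr.pos]
    have h2 : ∏ ξ ∈ Polynomial.nthRootsFinset p (1 : 𝓞 M), (b - ξ * c) ∈
        ∏ _ξ ∈ Polynomial.nthRootsFinset p (1 : 𝓞 M), w.asIdeal := by
      refine Ideal.prod_mem_prod fun ξ hξ => ?_
      rw [Polynomial.mem_nthRootsFinset hpr.pos] at hξ
      have h3 : ξ - 1 ∈ w.asIdeal := by
        apply hfrob
        rw [hξ, one_pow, sub_self]
        exact zero_mem _
      have : b - ξ * c = (b - c) - (ξ - 1) * c := by ring
      rw [this]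
      exact sub_mem hbc (Ideal.mul_mem_right _ _ h3)
    rwa [Finset.prod_const, hζM.card_nthRootsFinset] at h2
  refine ⟨c ^ p, ?_⟩
  have h4 : algebraMap (𝓞 K) (𝓞 M) (θ - ((c ^ p : ℤ) : 𝓞 K)) ∈ w.asIdeal ^ 3 := by
    rw [map_sub, map_intCast, ← hbp]
    push_cast
    exact Ideal.pow_le_pow_right hp3 hprod
  rw [← HeightOneSpectrum.intValuation_le_pow_iff_mem,
    RAM.intValuation_algebraMap hunr (RAM.ppSpec p K) w,
    HeightOneSpectrum.intValuation_le_pow_iff_mem] at h4
  exact h4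

end

end Fermat.Agent.S14
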