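/-
S14, CORE_three (wiring of `CORE_three_aux` with module RAM).
-/
import Fermat.Agent.S14.Core3Aux
import Fermat.Agent.S14.RAM

set_option autoImplicit false

namespace Fermat.Agent.S14

open NumberField JacobiSumStickelberger
open scoped NumberField nonZeroDivisors

variable (p : ℕ) [Fact p.Prime] (K : Type) [Field K] [NumberField K]
  [IsCyclotomicExtension {p} ℚ K]

theorem CORE_three (hp3 : p = 3) (M : Type) [Field M] [NumberField M] [Algebra K M] [IsGalois K M]
    (hunr : InertiaTrivial K M) (A : M) (α : K) (hα : α ≠ 0) (hA : A ^ p = algebraMap K M α) :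
    ∃ β : K, α = β ^ p :=
  CORE_three_aux p K hp3 M A α hα hA (RAM_singular p K M hunr A α hα hA)
    (fun B θ hB => RAM_congr p K hp3.ge M hunr B θ hB)

end Fermat.Agent.S14
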