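import Fermat.Agent.S14.Defs

set_option autoImplicit false

namespace Fermat.Agent.S14

open NumberField JacobiSumStickelberger
open scoped NumberField nonZeroDivisors

namespace CLT

variable (p : ℕ) [Fact p.Prime] (K : Type) [Field K] [NumberField K]
  [IsCyclotomicExtension {p} ℚ K]

/-- `η` is not a `p`-th power in `K` (from the local computations modulo `π³`). -/
theorem eta_not_pow
    (U2a : ∀ (k j : ℕ) (m : ℤ),
      eta p K ^ k * zetaInt p K ^ j - (m : 𝓞 K) ∈ pp p K ^ 3 → p ∣ k ∧ p ∣ j)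
    (U2b : ∀ x : 𝓞 K, ∃ m : ℤ, x ^ p - (m : 𝓞 K) ∈ pp p K ^ 3) :
    ¬ ∃ x : K, x ^ p = (eta p K : K) := by
  rintro ⟨x, hx⟩
  have hp0 : 0 < p := (Fact.out : p.Prime).pos
  have hint : IsIntegral ℤ x := by
    apply IsIntegral.of_pow hp0
    rw [hx]
    exact (eta p K).2
  let x' : 𝓞 K := ⟨x, hint⟩
  have hx' : x' ^ p = eta p K := by
    apply RingOfIntegers.ext
    have : ((x' ^ p : 𝓞 K) : K) = (x' : K) ^ p := map_pow (algebraMap (𝓞 K) K) x' p
    rw [this]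
    exact hx
  obtain ⟨m, hm⟩ := U2b x'
  rw [hx'] at hm
  have := (U2a 1 0 m (by simpa using hm)).1
  exact (Fact.out : p.Prime).one_lt.ne' (Nat.dvd_one.mp this)

/-- The reduction of `CL_stickE_eq_zero` to the analytic input, Thaine's theorem and the local
computations. -/
theorem stickE_eq_zero_of
    (AN : ∀ (ζ : K) (_ : IsPrimitiveRoot ζ p) (η : 𝓞 K) (_ : ¬ ∃ x : K, x ^ p = (η : K))
      (ψ : ClassGroup (𝓞 K) →* ℂˣ) (_ : ψ ≠ 1) (_ : ψ ^ p = 1),
      ∃ (P : Ideal (𝓞 K)) (hP : P ≠ ⊥), P.IsPrime ∧ (Ideal.absNorm P).Prime ∧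
        Ideal.absNorm P ≠ p ∧
        ψ (ClassGroup.mk0 ⟨P, mem_nonZeroDivisors_iff_ne_zero.mpr hP⟩) ≠ 1 ∧
        ¬ ∃ x : 𝓞 K, x ^ p - η ∈ P)
    (TH : ∀ (P : Ideal (𝓞 K)) (_ : IsGoodPrime p K P) (hP0 : P ≠ ⊥),
      stickE p K (clOf p K P hP0) = 0)
    (U2a : ∀ (k j : ℕ) (m : ℤ),
      eta p K ^ k * zetaInt p K ^ j - (m : 𝓞 K) ∈ pp p K ^ 3 → p ∣ k ∧ p ∣ j)
    (U2b : ∀ x : 𝓞 K, ∃ m : ℤ, x ^ p - (m : 𝓞 K) ∈ pp p K ^ 3) :
    stickE p K = 0 := by
  classical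
  set W : Submodule (ZMod p) (ClGalModule p (𝓞 K)) :=
    Submodule.span (ZMod p)
      {y | ∃ (P : Ideal (𝓞 K)) (hP0 : P ≠ ⊥), IsGoodPrime p K P ∧ y = clOf p K P hP0} with hW
  have hWtop : W = ⊤ := by
    by_contra hne
    obtain ⟨f, hf0, hfW⟩ := Submodule.exists_le_ker_of_lt_top W (lt_top_iff_ne_top.mpr hne)
    let ψ₀ : ClassGroup (𝓞 K) →* ℂ :=
      { toFun := fun c => ZMod.stdAddChar (f (clProj p (𝓞 K) (Additive.ofMul c)))
        map_one' := by simp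
        map_mul' := fun a b => by
          rw [ofMul_mul, map_add, map_add, AddChar.map_add_eq_mul] }
    let ψ : ClassGroup (𝓞 K) →* ℂˣ := ψ₀.toHomUnits
    have hψ_apply : ∀ c, ((ψ c : ℂˣ) : ℂ)
        = ZMod.stdAddChar (f (clProj p (𝓞 K) (Additive.ofMul c))) := fun c => rfl
    have hψ1 : ψ ≠ 1 := by
      intro h
      apply hf0
      ext y
      obtain ⟨C, rfl⟩ := clProj_surjective p (𝓞 K) y
      have h1 : ((ψ C.toMul : ℂˣ) : ℂ) = 1 := by rw [h]; rfl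
      rw [hψ_apply] at h1
      have h2 : f (clProj p (𝓞 K) (Additive.ofMul C.toMul)) = 0 := by
        apply ZMod.injective_stdAddChar
        rw [h1, AddChar.map_zero_eq_one]
      simpa using h2
    have hψp : ψ ^ p = 1 := by
      ext c
      rw [MonoidHom.pow_apply, Units.val_pow_eq_pow_val, hψ_apply, ← AddChar.map_nsmul_eq_pow]
      have : p • f (clProj p (𝓞 K) (Additive.ofMul c)) = 0 := by
        rw [nsmul_eq_mul]; simp
      rw [this, AddChar.map_zero_eq_one]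
      rfl
    obtain ⟨P, hP0, hPprime, hNprime, hNp, hψP, hnot⟩ :=
      AN _ (IsCyclotomicExtension.zeta_spec p ℚ K) (eta p K) (eta_not_pow p K U2a U2b) ψ hψ1 hψp
    apply hψP
    have hmem : clOf p K P hP0 ∈ W :=
      Submodule.subset_span ⟨P, hP0, ⟨hPprime, hNprime, hNp, hnot⟩, rfl⟩
    have hker : f (clOf p K P hP0) = 0 := hfW hmem
    ext
    rw [hψ_apply]
    have : f (clProj p (𝓞 K) (Additive.ofMul
        (ClassGroup.mk0 ⟨P, mem_nonZeroDivisors_iff_ne_zero.mpr hP0⟩))) = 0 := hker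
    rw [this, AddChar.map_zero_eq_one]
    rfl
  have hle : W ≤ LinearMap.ker (stickE p K) := by
    rw [hW, Submodule.span_le]
    rintro _ ⟨P, hP0, hgood, rfl⟩
    exact TH P hgood hP0
  rw [hWtop] at hle
  ext y
  exact hle (Submodule.mem_top : y ∈ ⊤)

end CLT

end Fermat.Agent.S14
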