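/-
S14, module U2: the cyclotomic unit `η`, its eigenspace property and local computations modulo `π³`.
-/
import Fermat.Agent.S14.Defs

set_option autoImplicit false

namespace Fermat.Agent.S14

open NumberField JacobiSumStickelberger Polynomial
open scoped NumberField nonZeroDivisors

namespace U2

section Ecalc

variable {F T : Type*} [Field F] [CommRing T] [Algebra F T] (x : T)

/-- `c (1 + u x + (v + u²/2) x²)`: multiplicative in `c`, additive in `u`, `v` modulo `x³`. -/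
def E (c u v : F) : T :=
  algebraMap F T c * (1 + algebraMap F T u * x + algebraMap F T (v + u ^ 2 * 2⁻¹) * x ^ 2)

lemma E_eq (c u v : F) : E x c u v =
    algebraMap F T c + algebraMap F T (c * u) * x + algebraMap F T (c * (v + u ^ 2 * 2⁻¹)) * x ^ 2 := by
  simp only [E, map_mul]; ring

lemma E_one : E x (1 : F) 0 0 = 1 := by simp [E]

variable {x}

lemma E_mul (h2 : (2 : F) ≠ 0) (hx : x ^ 3 = 0) (c u v c' u' v' : F) :
    E x c u v * E x c' u' v' = E x (c * c') (u + u') (v + v') := by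
  have hw : 2 * algebraMap F T (2⁻¹) = 1 := by
    rw [← map_ofNat (algebraMap F T) 2, ← map_mul, mul_inv_cancel₀ h2, map_one]
  simp only [E, map_mul, map_add, map_pow]
  generalize algebraMap F T c = C
  generalize algebraMap F T c' = C'
  generalize algebraMap F T u = U
  generalize algebraMap F T u' = U'
  generalize algebraMap F T v = V
  generalize algebraMap F T v' = V'
  generalize algebraMap F T 2⁻¹ = w at *
  linear_combination (C * C' * (U * (V' + U' ^ 2 * w) + U' * (V + U ^ 2 * w)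
    + x * (V + U ^ 2 * w) * (V' + U' ^ 2 * w))) * hx - (C * C' * U * U' * x ^ 2) * hw

lemma E_pow (h2 : (2 : F) ≠ 0) (hx : x ^ 3 = 0) (c u v : F) (n : ℕ) :
    E x c u v ^ n = E x (c ^ n) (n * u) (n * v) := by
  induction n with
  | zero => simp [E_one]
  | succ n ih =>
    rw [pow_succ, ih, E_mul h2 hx]
    congr 1 <;> push_cast <;> ring

lemma E_prod (h2 : (2 : F) ≠ 0) (hx : x ^ 3 = 0) {ι : Type*} (s : Finset ι) (c u v : ι → F) :
    ∏ i ∈ s, E x (c i) (u i) (v i) = E x (∏ i ∈ s, c i) (∑ i ∈ s, u i) (∑ i ∈ s, v i) := by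
  classical
  induction s using Finset.induction_on with
  | empty => simp [E_one]
  | insert a s ha ih =>
    rw [Finset.prod_insert ha, ih, E_mul h2 hx, Finset.prod_insert ha, Finset.sum_insert ha,
      Finset.sum_insert ha]

lemma one_add_eq : 1 + x = E x (1 : F) 1 (-2⁻¹) := by
  simp [E]

lemma geom_eq (h2 : (2 : F) ≠ 0) (h3 : (3 : F) ≠ 0) (hx : x ^ 3 = 0) (a : ℕ) :
    ∑ i ∈ Finset.range a, (1 + x) ^ i =
      E x (a : F) (((a : F) - 1) / 2) (((a : F) ^ 2 - 6 * a + 5) / 24) := by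
  have h24 : (24 : F) ≠ 0 := by
    have : (24 : F) = 2 ^ 3 * 3 := by norm_num
    rw [this]; positivity
  induction a with
  | zero => simp [E]
  | succ a ih =>
    rw [Finset.sum_range_succ, ih, one_add_eq (F := F), E_pow h2 hx, E_eq, E_eq, E_eq]
    have e1 : algebraMap F T ((a + 1 : ℕ) : F) = algebraMap F T (a : F) + algebraMap F T (1 ^ a) := by
      rw [← map_add]; congr 1; push_cast; ring
    have e2 : algebraMap F T (((a + 1 : ℕ) : F) * ((((a + 1 : ℕ) : F) - 1) / 2)) =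
        algebraMap F T ((a : F) * (((a : F) - 1) / 2)) + algebraMap F T (1 ^ a * ((a : F) * 1)) := by
      rw [← map_add]; congr 1; push_cast; field_simp; ring
    have e3 : algebraMap F T (((a + 1 : ℕ) : F) * (((((a + 1 : ℕ) : F)) ^ 2 - 6 * ((a + 1 : ℕ) : F) + 5) / 24
          + ((((a + 1 : ℕ) : F) - 1) / 2) ^ 2 * 2⁻¹)) =
        algebraMap F T ((a : F) * ((((a : F)) ^ 2 - 6 * (a : F) + 5) / 24
          + (((a : F) - 1) / 2) ^ 2 * 2⁻¹)) +
        algebraMap F T (1 ^ a * ((a : F) * (-2⁻¹) + ((a : F) * 1) ^ 2 * 2⁻¹)) := by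
      rw [← map_add]; congr 1; push_cast; field_simp; ring
    rw [e1, e2, e3]; ring

end Ecalc

end U2

section
variable (p : ℕ) [Fact p.Prime] (K : Type) [Field K] [NumberField K]
  [IsCyclotomicExtension {p} ℚ K]

namespace U2

lemma zetaInt_isPrimitiveRoot : IsPrimitiveRoot (zetaInt p K) p :=
  (IsCyclotomicExtension.zeta_spec p ℚ K).toInteger_isPrimitiveRoot

lemma coe_zetaInt : ((zetaInt p K : 𝓞 K) : K) = IsCyclotomicExtension.zeta p ℚ K := rfl

lemma sig_zeta (d : (ZMod p)ˣ) :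
    sig p K d (IsCyclotomicExtension.zeta p ℚ K) =
      IsCyclotomicExtension.zeta p ℚ K ^ (d : ZMod p).val := by
  have h := (IsCyclotomicExtension.zeta_spec p ℚ K).autToPow_spec ℚ (sig p K d)
  rw [← h]
  have h2 : cycloGalEquiv p K (sig p K d) = d := by
    simp [sig]
  have h3 : (IsCyclotomicExtension.zeta_spec p ℚ K).autToPow ℚ (sig p K d) = d := by
    exact Eq.trans rfl h2
  rw [h3]

lemma coe_sigInt (d : (ZMod p)ˣ) (x : 𝓞 K) : ((sigInt p K d x : 𝓞 K) : K) = sig p K d (x : K) := by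
  simp only [sigInt, clRingAction, sig, MonoidHom.comp_apply, galRestrictionDatum_apply]
  exact algebraMap_galRestrict_apply ℤ _ x

lemma sigInt_zetaInt (d : (ZMod p)ˣ) : sigInt p K d (zetaInt p K) = zetaInt p K ^ (d : ZMod p).val := by
  apply RingOfIntegers.ext
  rw [coe_sigInt, coe_zetaInt, sig_zeta]
  simp [coe_zetaInt]

lemma cycUnit_mul (a : ℕ) : cycUnit p K a * (zetaInt p K - 1) = zetaInt p K ^ a - 1 := by
  simp only [cycUnit]
  exact geom_sum_mul _ _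

lemma cycUnit_isUnit {a : ℕ} (ha : a.Coprime p) : IsUnit (cycUnit p K a) :=
  (zetaInt_isPrimitiveRoot p K).geom_sum_isUnit (Fact.out : p.Prime).two_le ha

lemma coprime_of_mem_Ioo {a : ℕ} (ha : a ∈ Finset.Ioo 0 p) : a.Coprime p := by
  rw [Finset.mem_Ioo] at ha
  exact (Nat.coprime_of_lt_prime (by omega) ha.2 Fact.out).symm

lemma zetaInt_pow_sub_one_mem (i : ℕ) : zetaInt p K ^ i - 1 ∈ pp p K := by
  rw [pp, Ideal.mem_span_singleton, piInt]
  exact sub_one_dvd_pow_sub_one _ _ 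

/-- Every algebraic integer of `K` is congruent to a rational integer modulo `π`. -/
lemma exists_int_sub_mem (x : 𝓞 K) : ∃ m : ℤ, x - (m : 𝓞 K) ∈ pp p K := by
  have hζ := IsCyclotomicExtension.zeta_spec p ℚ K
  obtain ⟨f, hf⟩ := (hζ.integralPowerBasis).exists_eq_aeval' x
  rw [hζ.integralPowerBasis_gen] at hf
  refine ⟨f.eval 1, ?_⟩
  rw [pp, Ideal.mem_span_singleton, piInt, hf]
  have h1 : ((f.eval 1 : ℤ) : 𝓞 K) = aeval (1 : 𝓞 K) f := by
    rw [← map_one (algebraMap ℤ (𝓞 K)), aeval_algebraMap_apply]; simp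
  rw [h1]
  simp only [aeval_def, eval₂_eq_eval_map]
  exact sub_dvd_eval_sub _ _ _

@[to_additive]
lemma prod_Ioo_eq {M : Type*} [CommMonoid M] (f : ℕ → M) :
    ∏ a ∈ Finset.Ioo 0 p, f a = ∏ x : (ZMod p)ˣ, f (x : ZMod p).val := by
  refine Finset.prod_bij' (fun a ha => ZMod.unitOfCoprime a (coprime_of_mem_Ioo p ha))
    (fun x _ => (x : ZMod p).val) (fun _ _ => Finset.mem_univ _) ?_ ?_ ?_ ?_
  · intro x _
    rw [Finset.mem_Ioo]
    refine ⟨?_, ZMod.val_lt _⟩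
    rw [Nat.pos_iff_ne_zero, Ne, ZMod.val_eq_zero]
    exact x.ne_zero
  · intro a ha
    rw [Finset.mem_Ioo] at ha
    simp [ZMod.val_natCast, Nat.mod_eq_of_lt ha.2]
  · intro x _
    ext
    simp
  · intro a ha
    rw [Finset.mem_Ioo] at ha
    simp [ZMod.val_natCast, Nat.mod_eq_of_lt ha.2]

lemma sum_units_pow (k : ℕ) :
    ∑ x : (ZMod p)ˣ, ((x : ZMod p)) ^ k = if p - 1 ∣ k then -1 else 0 := by
  have := FiniteField.sum_pow_units (ZMod p) k
  rw [ZMod.card] at this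
  simpa using this

/-- the cyclotomic unit attached to a unit of `ZMod p`. -/
noncomputable def cu (x : (ZMod p)ˣ) : (𝓞 K)ˣ :=
  (cycUnit_isUnit p K (ZMod.val_coe_unit_coprime x)).unit

lemma coe_cu (x : (ZMod p)ˣ) : ((cu p K x : (𝓞 K)ˣ) : 𝓞 K) = cycUnit p K (x : ZMod p).val := rfl

lemma zetaInt_sub_one_ne_zero : zetaInt p K - 1 ≠ 0 :=
  (zetaInt_isPrimitiveRoot p K).sub_one_ne_zero (Fact.out : p.Prime).one_lt

lemma zetaInt_pow_val_mul (d a : (ZMod p)ˣ) :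
    zetaInt p K ^ ((d : ZMod p).val * (a : ZMod p).val) = zetaInt p K ^ ((d * a : (ZMod p)ˣ) : ZMod p).val := by
  apply pow_eq_pow_of_modEq _ (zetaInt_isPrimitiveRoot p K).pow_eq_one
  rw [Units.val_mul, ZMod.val_mul]
  exact (Nat.mod_modEq _ _).symm

lemma sigInt_cycUnit (d a : (ZMod p)ˣ) :
    sigInt p K d (cycUnit p K (a : ZMod p).val) * cycUnit p K (d : ZMod p).val =
      cycUnit p K ((d * a : (ZMod p)ˣ) : ZMod p).val := by
  apply mul_right_cancel₀ (zetaInt_sub_one_ne_zero p K)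
  have h1 := congrArg (sigInt p K d) (cycUnit_mul p K (a : ZMod p).val)
  rw [map_mul, map_sub, map_sub, map_pow, map_one, sigInt_zetaInt, ← pow_mul, zetaInt_pow_val_mul,
    ← cycUnit_mul p K (d : ZMod p).val, ← cycUnit_mul p K ((d * a : (ZMod p)ˣ) : ZMod p).val] at h1
  rw [← h1]; ring

/-- the group of units modulo `p`-th powers -/
abbrev Q : Type := (𝓞 K)ˣ ⧸ (powMonoidHom p : (𝓞 K)ˣ →* (𝓞 K)ˣ).range

omit [Fact p.Prime] [NumberField K] [IsCyclotomicExtension {p} ℚ K] in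
lemma Q_pow (q : Q p K) : q ^ p = 1 := by
  obtain ⟨u, rfl⟩ := QuotientGroup.mk_surjective q
  rw [← QuotientGroup.mk_pow, QuotientGroup.eq_one_iff]
  exact ⟨u, rfl⟩

noncomputable def sigU (d : (ZMod p)ˣ) : (𝓞 K)ˣ →* (𝓞 K)ˣ :=
  Units.map ((sigInt p K d : 𝓞 K ≃+* 𝓞 K) : 𝓞 K →* 𝓞 K)

lemma coe_sigU (d : (ZMod p)ˣ) (u : (𝓞 K)ˣ) : ((sigU p K d u : (𝓞 K)ˣ) : 𝓞 K) = sigInt p K d u := rfl

lemma sigU_cu (d a : (ZMod p)ˣ) : sigU p K d (cu p K a) * cu p K d = cu p K (d * a) := by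
  apply Units.ext
  rw [Units.val_mul, coe_sigU, coe_cu, coe_cu, coe_cu]
  exact sigInt_cycUnit p K d a

lemma etaU_eq (h : IsUnit (eta p K)) :
    h.unit = ∏ x : (ZMod p)ˣ, cu p K x ^ ((x : ZMod p).val ^ (p - 3)) := by
  ext
  rw [IsUnit.unit_spec, eta, prod_Ioo_eq, Units.coe_prod]
  rfl

lemma sum_exp_modEq (hp5 : 5 ≤ p) : p ∣ ∑ x : (ZMod p)ˣ, (x : ZMod p).val ^ (p - 3) := by
  rw [← ZMod.natCast_eq_zero_iff]
  push_cast
  simp only [ZMod.natCast_val, ZMod.cast_id', id]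
  rw [sum_units_pow, if_neg]
  intro h
  have := Nat.le_of_dvd (by omega) h
  omega

lemma exp_modEq (hp5 : 5 ≤ p) (d b : (ZMod p)ˣ) :
    ((d⁻¹ * b : (ZMod p)ˣ) : ZMod p).val ^ (p - 3) ≡
      (b : ZMod p).val ^ (p - 3) * (d : ZMod p).val ^ 2 [MOD p] := by
  rw [← ZMod.natCast_eq_natCast_iff]
  push_cast
  simp only [ZMod.natCast_val, ZMod.cast_id', id]
  have h1 : (d : ZMod p) ^ (p - 1) = 1 := ZMod.pow_card_sub_one_eq_one d.ne_zero
  have h2 : ((d : ZMod p))⁻¹ * d = 1 := inv_mul_cancel₀ d.ne_zero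
  have h3 : ((d : ZMod p))⁻¹ ^ (p - 3) = (d : ZMod p) ^ 2 := by
    calc ((d : ZMod p))⁻¹ ^ (p - 3)
        = ((d : ZMod p))⁻¹ ^ (p - 3) * (d : ZMod p) ^ (p - 1) := by rw [h1, mul_one]
      _ = (((d : ZMod p))⁻¹ * d) ^ (p - 3) * (d : ZMod p) ^ 2 := by
          rw [mul_pow, mul_assoc, ← pow_add]; congr 2; omega
      _ = _ := by rw [h2, one_pow, one_mul]
  rw [mul_pow, h3]; ring

/-- the truncated polynomial ring `𝔽_p[X]/(X³)` -/
abbrev T3 : Type := AdjoinRoot (X ^ 3 : (ZMod p)[X])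

/-- the class of `X` -/
noncomputable def xT : T3 p := AdjoinRoot.root (X ^ 3 : (ZMod p)[X])

lemma xT_pow : xT p ^ 3 = 0 := by
  have := AdjoinRoot.eval₂_root (X ^ 3 : (ZMod p)[X])
  simpa [xT] using this

lemma lin_indep (a b c : ZMod p)
    (h : algebraMap (ZMod p) (T3 p) a + algebraMap (ZMod p) (T3 p) b * xT p
      + algebraMap (ZMod p) (T3 p) c * xT p ^ 2 = 0) : a = 0 ∧ b = 0 ∧ c = 0 := by
  have h1 : AdjoinRoot.mk (X ^ 3 : (ZMod p)[X]) (C a + C b * X + C c * X ^ 2) = 0 := by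
    rw [← h]
    simp [xT, AdjoinRoot.algebraMap_eq]
  rw [AdjoinRoot.mk_eq_zero, X_pow_dvd_iff] at h1
  refine ⟨?_, ?_, ?_⟩
  · simpa using h1 0 (by norm_num)
  · simpa using h1 1 (by norm_num)
  · simpa using h1 2 (by norm_num)

lemma aeval_cyclotomic (hp5 : 5 ≤ p) : aeval (1 + xT p) (cyclotomic p ℤ) = 0 := by
  have h1 : cyclotomic p (ZMod p) = (X - 1) ^ (p - 1) := by
    have := cyclotomic_mul_prime_pow_eq (ZMod p) (p := p) (m := 1)
      (by simpa using (Fact.out : p.Prime).one_lt.ne') (k := 1) one_pos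
    simpa using this
  have h2 : aeval (1 + xT p) (cyclotomic p ℤ) = aeval (1 + xT p) (cyclotomic p (ZMod p)) := by
    rw [← map_cyclotomic_int p (ZMod p)]
    exact (aeval_map_algebraMap (ZMod p) (1 + xT p) (cyclotomic p ℤ)).symm
  rw [h2, h1]
  simp only [map_pow, map_sub, aeval_X, map_one, add_sub_cancel_left]
  obtain ⟨k, hk⟩ : ∃ k, p - 1 = 3 + k := ⟨p - 4, by omega⟩
  rw [hk, pow_add, xT_pow, zero_mul]

lemma aeval_minpoly_gen (hp5 : 5 ≤ p) : aeval (1 + xT p)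
    (minpoly ℤ ((IsCyclotomicExtension.zeta_spec p ℚ K).integralPowerBasis).gen) = 0 := by
  have hζ := IsCyclotomicExtension.zeta_spec p ℚ K
  rw [hζ.integralPowerBasis_gen]
  have : minpoly ℤ hζ.toInteger = cyclotomic p ℤ := by
    rw [cyclotomic_eq_minpoly hζ (Fact.out : p.Prime).pos]
    exact (minpoly.algebraMap_eq RingOfIntegers.coe_injective _).symm
  rw [this]
  exact aeval_cyclotomic p hp5

/-- the ring homomorphism `𝓞 K → 𝔽_p[X]/(X³)`, `ζ ↦ 1 + X`. -/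
noncomputable def phi (hp5 : 5 ≤ p) : 𝓞 K →ₐ[ℤ] T3 p :=
  ((IsCyclotomicExtension.zeta_spec p ℚ K).integralPowerBasis).lift (1 + xT p)
    (aeval_minpoly_gen p K hp5)

lemma phi_zetaInt (hp5 : 5 ≤ p) : phi p K hp5 (zetaInt p K) = 1 + xT p := by
  have hζ := IsCyclotomicExtension.zeta_spec p ℚ K
  have h := (hζ.integralPowerBasis).lift_gen (1 + xT p) (aeval_minpoly_gen p K hp5)
  have h2 : zetaInt p K = (hζ.integralPowerBasis).gen := (hζ.integralPowerBasis_gen).symm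
  rw [h2]
  exact h

lemma phi_eq_zero_of_mem (hp5 : 5 ≤ p) {y : 𝓞 K} (hy : y ∈ pp p K ^ 3) : phi p K hp5 y = 0 := by
  rw [pp, Ideal.span_singleton_pow, Ideal.mem_span_singleton] at hy
  obtain ⟨z, rfl⟩ := hy
  rw [map_mul, map_pow, piInt, map_sub, map_one, phi_zetaInt, add_sub_cancel_left, xT_pow, zero_mul]


lemma two_ne_zero' (hp5 : 5 ≤ p) : (2 : ZMod p) ≠ 0 := by
  intro h
  have h' : ((2 : ℕ) : ZMod p) = 0 := by exact_mod_cast h
  rw [ZMod.natCast_eq_zero_iff] at h'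
  have := Nat.le_of_dvd (by norm_num) h'
  omega

lemma three_ne_zero' (hp5 : 5 ≤ p) : (3 : ZMod p) ≠ 0 := by
  intro h
  have h' : ((3 : ℕ) : ZMod p) = 0 := by exact_mod_cast h
  rw [ZMod.natCast_eq_zero_iff] at h'
  have := Nat.le_of_dvd (by norm_num) h'
  omega

lemma twentyfour_ne_zero (hp5 : 5 ≤ p) : (24 : ZMod p) ≠ 0 := by
  have : (24 : ZMod p) = 2 ^ 3 * 3 := by norm_num
  rw [this]
  exact mul_ne_zero (pow_ne_zero _ (two_ne_zero' p hp5)) (three_ne_zero' p hp5)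

omit [Fact p.Prime] in
lemma not_dvd_sub_two (hp5 : 5 ≤ p) : ¬ p - 1 ∣ p - 2 := by
  intro h
  have := Nat.le_of_dvd (by omega) h
  omega

omit [Fact p.Prime] in
lemma not_dvd_sub_three (hp5 : 5 ≤ p) : ¬ p - 1 ∣ p - 3 := by
  intro h
  have := Nat.le_of_dvd (by omega) h
  omega

lemma sumU (hp5 : 5 ≤ p) :
    ∑ a ∈ Finset.Ioo 0 p, ((a ^ (p - 3) : ℕ) : ZMod p) * (((a : ZMod p) - 1) / 2) = 0 := by
  rw [sum_Ioo_eq p (fun a => ((a ^ (p - 3) : ℕ) : ZMod p) * (((a : ZMod p) - 1) / 2))]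
  simp only [Nat.cast_pow, ZMod.natCast_val, ZMod.cast_id', id]
  have h : ∀ x : (ZMod p)ˣ, (x : ZMod p) ^ (p - 3) * (((x : ZMod p) - 1) / 2) =
      ((x : ZMod p) ^ (p - 2) - (x : ZMod p) ^ (p - 3)) / 2 := by
    intro x
    have : p - 2 = (p - 3) + 1 := by omega
    rw [this, pow_succ]; ring
  simp only [h]
  rw [← Finset.sum_div, Finset.sum_sub_distrib, sum_units_pow, sum_units_pow,
    if_neg (not_dvd_sub_two p hp5), if_neg (not_dvd_sub_three p hp5)]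
  simp

lemma sumV (hp5 : 5 ≤ p) :
    ∑ a ∈ Finset.Ioo 0 p, ((a ^ (p - 3) : ℕ) : ZMod p) * (((a : ZMod p) ^ 2 - 6 * a + 5) / 24)
      = -1 / 24 := by
  rw [sum_Ioo_eq p (fun a => ((a ^ (p - 3) : ℕ) : ZMod p) * (((a : ZMod p) ^ 2 - 6 * a + 5) / 24))]
  simp only [Nat.cast_pow, ZMod.natCast_val, ZMod.cast_id', id]
  have h : ∀ x : (ZMod p)ˣ, (x : ZMod p) ^ (p - 3) * (((x : ZMod p) ^ 2 - 6 * x + 5) / 24) =
      ((x : ZMod p) ^ (p - 1) - 6 * (x : ZMod p) ^ (p - 2) + 5 * (x : ZMod p) ^ (p - 3)) / 24 := by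
    intro x
    have h1 : p - 2 = (p - 3) + 1 := by omega
    have h2 : p - 1 = (p - 3) + 2 := by omega
    rw [h1, h2, pow_succ, pow_add]; ring
  simp only [h]
  rw [← Finset.sum_div, Finset.sum_add_distrib, Finset.sum_sub_distrib, ← Finset.mul_sum,
    ← Finset.mul_sum, sum_units_pow, sum_units_pow, sum_units_pow,
    if_neg (not_dvd_sub_two p hp5), if_neg (not_dvd_sub_three p hp5), if_pos (dvd_refl _)]
  simp

/-- the constant term of `η` modulo `π`. -/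
noncomputable def c0 : ZMod p := ∏ a ∈ Finset.Ioo 0 p, (a : ZMod p) ^ (a ^ (p - 3))

lemma c0_ne_zero : c0 p ≠ 0 := by
  rw [c0, Finset.prod_ne_zero_iff]
  intro a ha
  apply pow_ne_zero
  rw [Ne, ZMod.natCast_eq_zero_iff]
  rw [Finset.mem_Ioo] at ha
  intro h
  have := Nat.le_of_dvd ha.1 h
  omega

lemma phi_cycUnit (hp5 : 5 ≤ p) (a : ℕ) : phi p K hp5 (cycUnit p K a) =
    E (xT p) (a : ZMod p) (((a : ZMod p) - 1) / 2) (((a : ZMod p) ^ 2 - 6 * a + 5) / 24) := by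
  rw [cycUnit, map_sum]
  simp only [map_pow, phi_zetaInt]
  exact geom_eq (two_ne_zero' p hp5) (three_ne_zero' p hp5) (xT_pow p) a

lemma phi_eta (hp5 : 5 ≤ p) : phi p K hp5 (eta p K) = E (xT p) (c0 p) 0 (-1 / 24) := by
  rw [eta, map_prod]
  simp only [map_pow, phi_cycUnit, E_pow (two_ne_zero' p hp5) (xT_pow p)]
  rw [E_prod (two_ne_zero' p hp5) (xT_pow p), sumU p hp5, sumV p hp5]
  rfl
end U2

theorem U2_eta_isUnit : IsUnit (eta p K) := by
  rw [eta, IsUnit.prod_iff]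
  intro a ha
  exact (U2.cycUnit_isUnit p K (U2.coprime_of_mem_Ioo p ha)).pow _

theorem U2_pow_congr (hp3 : 3 ≤ p) (x : 𝓞 K) : ∃ m : ℤ, x ^ p - (m : 𝓞 K) ∈ pp p K ^ 3 := by
  obtain ⟨m, hm⟩ := U2.exists_int_sub_mem p K x
  refine ⟨m ^ p, ?_⟩
  have hpos : 0 < p := by omega
  have h := (U2.zetaInt_isPrimitiveRoot p K).pow_sub_pow_eq_prod_sub_mul x (m : 𝓞 K) hpos
  push_cast
  rw [h]
  apply Ideal.pow_le_pow_right hp3
  have hcard : (nthRootsFinset p (1 : 𝓞 K)).card = p :=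
    (U2.zetaInt_isPrimitiveRoot p K).card_nthRootsFinset
  have : ∏ ζ ∈ nthRootsFinset p (1 : 𝓞 K), (x - ζ * (m : 𝓞 K)) ∈
      ∏ _ζ ∈ nthRootsFinset p (1 : 𝓞 K), pp p K := by
    apply Ideal.prod_mem_prod
    intro ζ hζ
    rw [mem_nthRootsFinset hpos] at hζ
    obtain ⟨i, -, rfl⟩ := (U2.zetaInt_isPrimitiveRoot p K).eq_pow_of_pow_eq_one hζ
    have h1 := U2.zetaInt_pow_sub_one_mem p K i
    have : x - zetaInt p K ^ i * (m : 𝓞 K) = (x - m) - (zetaInt p K ^ i - 1) * m := by ring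
    rw [this]
    exact Ideal.sub_mem _ hm (Ideal.mul_mem_right _ _ h1)
  rwa [Finset.prod_const, hcard] at this

theorem U2_torsion (hp3 : 3 ≤ p) (t : (𝓞 K)ˣ) (ht : t ∈ NumberField.Units.torsion K) :
    ∃ (j : ℕ) (u : (𝓞 K)ˣ), (t : 𝓞 K) = zetaInt p K ^ j * (u : 𝓞 K) ^ p := by
  have hodd : Odd p := (Fact.out : p.Prime).odd_of_ne_two (by omega)
  have hfin : IsOfFinOrder ((t : 𝓞 K) : K) := by
    have h1 : IsOfFinOrder t := (CommGroup.mem_torsion _).mp ht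
    obtain ⟨n, hn, h⟩ := isOfFinOrder_iff_pow_eq_one.mp h1
    refine isOfFinOrder_iff_pow_eq_one.mpr ⟨n, hn, ?_⟩
    have := congrArg (fun u : (𝓞 K)ˣ => ((u : 𝓞 K) : K)) h
    simpa using this
  obtain ⟨r, -, h | h⟩ := (IsCyclotomicExtension.zeta_spec p ℚ K).exists_pow_or_neg_mul_pow_of_isOfFinOrder
    hodd hfin
  · refine ⟨r, 1, ?_⟩
    apply RingOfIntegers.ext
    rw [h]; simp [zetaInt]
  · refine ⟨r, -1, ?_⟩
    apply RingOfIntegers.ext
    rw [h]; simp [zetaInt, hodd.neg_one_pow]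

theorem U2_eta_eigen (hp5 : 5 ≤ p) : IsEigenTwoUnit p K (U2_eta_isUnit p K).unit := by
  intro d
  set η := (U2_eta_isUnit p K).unit with hη
  let mk : (𝓞 K)ˣ →* U2.Q p K := QuotientGroup.mk' _
  have key : mk (U2.sigU p K d η) = mk (η ^ ((d : ZMod p).val ^ 2)) := by
    have h1 : ∀ a, mk (U2.sigU p K d (U2.cu p K a)) = mk (U2.cu p K (d * a)) * (mk (U2.cu p K d))⁻¹ := by
      intro a
      rw [← U2.sigU_cu, map_mul, mul_inv_cancel_right]
    rw [hη, U2.etaU_eq, map_prod, map_prod, map_pow, map_prod]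
    simp only [map_pow, h1]
    have h2 : ∀ x : (ZMod p)ˣ, (mk (U2.cu p K (d * x)) * (mk (U2.cu p K d))⁻¹) ^ ((x : ZMod p).val ^ (p - 3))
        = mk (U2.cu p K (d * x)) ^ ((x : ZMod p).val ^ (p - 3)) *
          ((mk (U2.cu p K d))⁻¹) ^ ((x : ZMod p).val ^ (p - 3)) := fun x => mul_pow (M := U2.Q p K) _ _ _
    simp only [h2]
    rw [Finset.prod_mul_distrib, Finset.prod_pow_eq_pow_sum]
    obtain ⟨s, hs⟩ := U2.sum_exp_modEq p hp5
    rw [hs, pow_mul, U2.Q_pow, one_pow, mul_one]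
    rw [← Equiv.prod_comp (Equiv.mulLeft d⁻¹)
      (fun a => mk (U2.cu p K (d * a)) ^ ((a : ZMod p).val ^ (p - 3)))]
    rw [← Finset.prod_pow]
    refine Finset.prod_congr rfl fun b _ => ?_
    simp only [Equiv.coe_mulLeft, mul_inv_cancel_left]
    rw [← pow_mul]
    exact pow_eq_pow_of_modEq (U2.exp_modEq p hp5 d b) (U2.Q_pow p K _)
  have key2 := (QuotientGroup.eq).mp key.symm
  obtain ⟨u, hu⟩ := key2
  refine ⟨u, ?_⟩
  have : U2.sigU p K d η = η ^ ((d : ZMod p).val ^ 2) * u ^ p := by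
    have hu' : u ^ p = (η ^ ((d : ZMod p).val ^ 2))⁻¹ * U2.sigU p K d η := hu
    rw [hu']; group
  have := congrArg (fun v : (𝓞 K)ˣ => (v : 𝓞 K)) this
  simpa [U2.coe_sigU] using this


theorem U2_local_obstruction (hp5 : 5 ≤ p) (k j : ℕ) (m : ℤ)
    (h : eta p K ^ k * zetaInt p K ^ j - (m : 𝓞 K) ∈ pp p K ^ 3) : p ∣ k ∧ p ∣ j := by
  have h2 := U2.two_ne_zero' p hp5
  have hx := U2.xT_pow p
  have h1 := U2.phi_eq_zero_of_mem p K hp5 h
  rw [map_sub, map_mul, map_pow, map_pow, U2.phi_eta, U2.phi_zetaInt, map_intCast,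
    U2.one_add_eq (F := ZMod p), U2.E_pow h2 hx, U2.E_pow h2 hx, U2.E_mul h2 hx, U2.E_eq] at h1
  have hm : ((m : ℤ) : U2.T3 p) = algebraMap (ZMod p) (U2.T3 p) (m : ZMod p) := by simp
  rw [hm] at h1
  have h3 := U2.lin_indep p (U2.c0 p ^ k * 1 ^ j - (m : ZMod p))
    (U2.c0 p ^ k * 1 ^ j * (↑k * 0 + ↑j * 1))
    (U2.c0 p ^ k * 1 ^ j * (↑k * (-1 / 24) + ↑j * -2⁻¹ + (↑k * 0 + ↑j * 1) ^ 2 * 2⁻¹))
    (by rw [map_sub]; linear_combination h1)
  obtain ⟨-, hb, hc⟩ := h3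
  have hC : U2.c0 p ^ k * 1 ^ j ≠ 0 := by
    simpa using pow_ne_zero k (U2.c0_ne_zero p)
  have hj : (j : ZMod p) = 0 := by
    have := (mul_eq_zero.mp hb).resolve_left hC
    simpa using this
  have hk : (k : ZMod p) = 0 := by
    have := (mul_eq_zero.mp hc).resolve_left hC
    rw [hj] at this
    have h24 := U2.twentyfour_ne_zero p hp5
    field_simp at this
    simpa [h2] using this
  exact ⟨(ZMod.natCast_eq_zero_iff _ _).mp hk, (ZMod.natCast_eq_zero_iff _ _).mp hj⟩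
end
end Fermat.Agent.S14
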