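/-
S14 / module TH : Thaine's theorem for the `ω²`-eigenspace of `Cl(ℚ(ζ_p))/p`.
-/
import Fermat.Agent.S14.U2
import Fermat.Agent.S14.TH.NormOne
import Fermat.Agent.S14.TH.Galois
import Fermat.Agent.S14.TH.Unit
import Fermat.Agent.S14.TH.Hilbert90
import Fermat.Agent.S14.TH.Away
import Fermat.Agent.S14.TH.LocalMain
import Fermat.Agent.S14.TH.Residue
import Fermat.Agent.S14.TH.Factor
import Fermat.Agent.S14.TH.ClassGroup

set_option autoImplicit false

namespace Fermat.Agent.S14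

open NumberField JacobiSumStickelberger
open scoped NumberField nonZeroDivisors

variable (p : ℕ) [Fact p.Prime] (K : Type) [Field K] [NumberField K]
  [IsCyclotomicExtension {p} ℚ K]

/-- Thaine's theorem, assuming the eigen-property of `η` (module U2). -/
theorem TH_thaine_aux (hp5 : 5 ≤ p)
    (heig : ∀ d : (ZMod p)ˣ, ∃ u : (𝓞 K)ˣ,
      sigInt p K d (eta p K) = eta p K ^ ((d : ZMod p).val ^ 2) * (u : 𝓞 K) ^ p)
    (P : Ideal (𝓞 K)) (hP : IsGoodPrime p K P) (hP0 : P ≠ ⊥) :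
    stickE p K (clOf p K P hP0) = 0 := by
  obtain ⟨hPp, hl, hlp, -⟩ := id hP
  set l := Ideal.absNorm P with hldef
  have : Fact l.Prime := ⟨hl⟩
  have hl1 : p ∣ l - 1 := TH_dvd_sub_one p K P hPp hl hlp
  let L := CyclotomicField l K
  have : NumberField L := IsCyclotomicExtension.numberField {l} K L
  have hcyc : IsCyclotomicExtension {p * l} ℚ L := TH_isCyclotomicExtension_mul p K l L hlp
  obtain ⟨s, τ, hs0, hs, hτ, hcard, hτξ⟩ := TH_exists_gen p K l L hlp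
  obtain ⟨ε, hε1, hεη⟩ := TH_exists_unit p K l L hlp hl1
  obtain ⟨y, κ, hy0, hκ, hyτ, hy⟩ := TH_exists_kappa K l L τ hτ hcard ε hε1
  have hD := fun 𝔮 h𝔮 h0 hl' => TH_dvd_cnt_aux p K l L hcyc hlp hl1 y κ hκ hy 𝔮 h𝔮 h0 hl'
  have hfac := TH_factor p K P hPp hl hlp κ hκ hD
  have hE : ∀ d : (ZMod p)ˣ,
      eta p K * (s : 𝓞 K) ^ cnt K (sigIdeal p K d P) κ - 1 ∈ sigIdeal p K d P := fun d =>
    TH_local_aux p K l L hcyc hlp s τ hτξ ε hεη y κ hκ hyτ hy _ (TH_sigIdeal p K P hPp d).1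
      (TH_sigIdeal p K P hPp d).2
  obtain ⟨hr1, hrd⟩ := TH_residue p K (by omega) P hP hl1 s hs0 hs heig _ hE
  exact TH_class p K P hP0 κ hκ _ hfac hr1 hrd

theorem TH_thaine (hp5 : 5 ≤ p) (P : Ideal (𝓞 K)) (hP : IsGoodPrime p K P) (hP0 : P ≠ ⊥) :
    stickE p K (clOf p K P hP0) = 0 := by
  refine TH_thaine_aux p K hp5 (fun d => ?_) P hP hP0
  obtain ⟨u, hu⟩ := U2_eta_eigen p K hp5 d
  exact ⟨u, by simpa using hu⟩

end Fermat.Agent.S14
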