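/-
S14: `stickE = 0` on `Cl(K)/p` (wiring of `CLT.stickE_eq_zero_of` with AN, TH, U2).
-/
import Fermat.Agent.S14.CLTAux
import Fermat.Agent.S14.AN.Main
import Fermat.Agent.S14.TH
import Fermat.Agent.S14.U2

set_option autoImplicit false

namespace Fermat.Agent.S14

open NumberField JacobiSumStickelberger
open scoped NumberField nonZeroDivisors

variable (p : ℕ) [Fact p.Prime] (K : Type) [Field K] [NumberField K]
  [IsCyclotomicExtension {p} ℚ K]

theorem CL_stickE_eq_zero (hp5 : 5 ≤ p) : stickE p K = 0 :=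
  CLT.stickE_eq_zero_of p K
    (fun ζ hζ η hη ψ h1 hp => AN_exists_prime K p (by omega) ζ hζ η hη ψ h1 hp)
    (fun P h h0 => TH_thaine p K hp5 P h h0)
    (U2_local_obstruction p K hp5) (U2_pow_congr p K (by omega))

end Fermat.Agent.S14
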