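/-
S14 project, task CL-U: an `ω²`-eigen element `α` with `(α) = I ^ p` is a unit times a `p`-th power,
provided the operator `stickE` vanishes on `Cl(K)/p`.
-/
import Fermat.Agent.S14.Defs

set_option autoImplicit false

namespace Fermat.Agent.S14

open NumberField JacobiSumStickelberger
open scoped NumberField nonZeroDivisors

namespace CLU

/-- Abstract descent: in a finite commutative group, if `T` maps everything into `p`-th powers,
`x ^ p = 1` and `T x = x⁻¹`, then `x = 1`. -/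
theorem eq_one_of_T {C : Type*} [CommGroup C] [Finite C] (p : ℕ) (hp : p.Prime) (T : C →* C)
    (hT : ∀ y, ∃ z, z ^ p = T y) (x : C) (hx : x ^ p = 1) (hTx : T x = x⁻¹) : x = 1 := by
  have key : ∀ k : ℕ, ∃ z : C, z ^ (p ^ k) = x := by
    intro k
    induction k with
    | zero => exact ⟨x, by simp⟩
    | succ k ih =>
      obtain ⟨z, hz⟩ := ih
      obtain ⟨w, hw⟩ := hT z
      refine ⟨w⁻¹, ?_⟩
      have h1 : T x = w ^ (p ^ (k + 1)) := by
        rw [← hz, map_pow, ← hw, ← pow_mul, pow_succ, mul_comm]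
      rw [inv_pow, ← h1, hTx, inv_inv]
  have hcard : Nat.card C ≠ 0 := Nat.card_pos.ne'
  obtain ⟨a, m, hm, hcm⟩ := Nat.exists_eq_pow_mul_and_not_dvd hcard p hp.ne_one
  obtain ⟨z, hz⟩ := key a
  have h1 : x ^ m = 1 := by
    rw [← hz, ← pow_mul, ← hcm, pow_card_eq_one']
  have h2 : orderOf x ∣ Nat.gcd p m :=
    Nat.dvd_gcd (orderOf_dvd_of_pow_eq_one hx) (orderOf_dvd_of_pow_eq_one h1)
  rw [(hp.coprime_iff_not_dvd.mpr hm : Nat.gcd p m = 1), Nat.dvd_one, orderOf_eq_one_iff] at h2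
  exact h2

section

variable (p : ℕ) [Fact p.Prime] (K : Type) [Field K] [NumberField K]
  [IsCyclotomicExtension {p} ℚ K]

/-- the action of `σ_d` on the class group -/
noncomputable def sCl (d : (ZMod p)ˣ) : ClassGroup (𝓞 K) →* ClassGroup (𝓞 K) :=
  (ClassGroup.mulEquiv (clRingAction p K d)).toMonoidHom

/-- the operator `∏_d σ_d ^ (d^(p-3))` on the class group -/
noncomputable def TCl : ClassGroup (𝓞 K) →* ClassGroup (𝓞 K) :=
  ∏ d : (ZMod p)ˣ, (powMonoidHom (((d : ZMod p) ^ (p - 3)).val)).comp (sCl p K d)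

theorem TCl_apply (y : ClassGroup (𝓞 K)) :
    TCl p K y = ∏ d : (ZMod p)ˣ, (sCl p K d y) ^ (((d : ZMod p) ^ (p - 3)).val) := by
  simp [TCl]

theorem stickE_clProj (y : ClassGroup (𝓞 K)) :
    stickE p K (clProj p (𝓞 K) (Additive.ofMul y)) =
      clProj p (𝓞 K) (Additive.ofMul (TCl p K y)) := by
  rw [TCl_apply, ofMul_prod, map_sum, stickE, LinearMap.sum_apply]
  refine Finset.sum_congr rfl fun d _ => ?_
  rw [LinearMap.smul_apply, ofMul_pow, map_nsmul]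
  have h1 : clGalAction p K d (clProj p (𝓞 K) (Additive.ofMul y))
      = clProj p (𝓞 K) (Additive.ofMul (sCl p K d y)) := rfl
  rw [h1]
  conv_lhs => rw [← ZMod.natCast_zmod_val ((d : ZMod p) ^ (p - 3))]
  rw [Nat.cast_smul_eq_nsmul]

theorem exists_pow_eq_TCl (hT : stickE p K = 0) (y : ClassGroup (𝓞 K)) :
    ∃ z, z ^ p = TCl p K y := by
  have h := stickE_clProj p K y
  rw [hT, LinearMap.zero_apply] at h
  obtain ⟨z, hz⟩ := (ModP.proj_eq_zero_iff p (Additive (ClassGroup (𝓞 K)))).mp h.symm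
  exact ⟨z.toMul, hz⟩

theorem coe_clRingAction (d : (ZMod p)ˣ) (a : 𝓞 K) :
    ((clRingAction p K d a : 𝓞 K) : K) = sig p K d (a : K) :=
  algebraMap_galRestrict_apply ℤ ((cycloGalEquiv p K).symm d) a

omit [IsCyclotomicExtension {p} ℚ K] [Fact p.Prime] in
theorem ideal_pow_inj {I J : Ideal (𝓞 K)} {n : ℕ} (hn : n ≠ 0) (h : I ^ n = J ^ n) : I = J := by
  have h1 : I ∣ J := (UniqueFactorizationMonoid.pow_dvd_pow_iff_dvd hn).mp (h ▸ dvd_rfl)
  have h2 : J ∣ I := (UniqueFactorizationMonoid.pow_dvd_pow_iff_dvd hn).mp (h ▸ dvd_rfl)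
  exact le_antisymm (Ideal.le_of_dvd h2) (Ideal.le_of_dvd h1)

theorem unit_sq_mul_pow (d : (ZMod p)ˣ) : (d : ZMod p) ^ 2 * (d : ZMod p) ^ (p - 3) = 1 := by
  have hp : p.Prime := Fact.out
  rcases hp.eq_two_or_odd' with h2 | hodd
  · subst h2
    have : d = 1 := Subsingleton.elim _ _
    simp [this]
  · have h3 : 3 ≤ p := by
      have := hp.two_le
      rcases hodd with ⟨k, hk⟩
      omega
    rw [← pow_add, show 2 + (p - 3) = p - 1 by omega]
    exact ZMod.pow_card_sub_one_eq_one d.ne_zero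

theorem sum_exponent :
    ((∑ d : (ZMod p)ˣ, (d : ZMod p).val ^ 2 * ((d : ZMod p) ^ (p - 3)).val : ℕ) : ZMod p) = -1 := by
  have hp : p.Prime := Fact.out
  push_cast
  simp only [ZMod.natCast_zmod_val, unit_sq_mul_pow]
  rw [Finset.sum_const, Finset.card_univ, ZMod.card_units, nsmul_eq_mul, mul_one,
    Nat.cast_sub hp.one_le]
  simp

theorem isPrincipal_of_eigen (hT : stickE p K = 0) (α₀ : 𝓞 K) (hα₀ : α₀ ≠ 0) (J : Ideal (𝓞 K))
    (hJ : Ideal.span {α₀} = J ^ p) (heig : IsEigenTwo p K (α₀ : K)) : J.IsPrincipal := by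
  have hp : p.Prime := Fact.out
  have hJ0 : J ≠ ⊥ := by
    rintro rfl
    rw [← Ideal.zero_eq_bot, zero_pow hp.ne_zero, Ideal.zero_eq_bot,
      Ideal.span_singleton_eq_bot] at hJ
    exact hα₀ hJ
  have hJmem : J ∈ (Ideal (𝓞 K))⁰ := mem_nonZeroDivisors_iff_ne_zero.mpr hJ0
  set x : ClassGroup (𝓞 K) := ClassGroup.mk0 ⟨J, hJmem⟩ with hxdef
  have hpow : ∀ n : ℕ, ∀ h : J ^ n ∈ (Ideal (𝓞 K))⁰, x ^ n = ClassGroup.mk0 ⟨J ^ n, h⟩ := by
    intro n h
    rw [hxdef, ← map_pow]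
    congr 1
  have hx : x ^ p = 1 := by
    rw [hpow p (pow_mem hJmem p), ClassGroup.mk0_eq_one_iff, ← hJ]
    exact ⟨⟨α₀, rfl⟩⟩
  have hs : ∀ d : (ZMod p)ˣ, sCl p K d x = x ^ ((d : ZMod p).val ^ 2) := by
    intro d
    set n := (d : ZMod p).val ^ 2 with hn
    set g := clRingAction p K d with hg
    obtain ⟨β, hβ⟩ := heig d
    obtain ⟨b, c, hc, rfl⟩ := IsFractionRing.div_surjective (A := 𝓞 K) β
    have hc0 : c ≠ 0 := nonZeroDivisors.ne_zero hc
    have hcK : (algebraMap (𝓞 K) K c) ≠ 0 := by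
      simpa using hc0
    have e1 : g α₀ * c ^ p = α₀ ^ n * b ^ p := by
      apply FaithfulSMul.algebraMap_injective (𝓞 K) K
      have hcoe : algebraMap (𝓞 K) K (g α₀) = sig p K d (α₀ : K) := coe_clRingAction p K d α₀
      rw [map_mul, map_mul, map_pow, map_pow, map_pow, hcoe, hβ, div_pow, mul_assoc,
        div_mul_cancel₀ _ (pow_ne_zero _ hcK)]
    have hgα : g α₀ ≠ 0 := by simpa using hα₀
    have hb0 : b ≠ 0 := by
      rintro rfl
      rw [zero_pow hp.ne_zero, mul_zero] at e1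
      exact mul_ne_zero hgα (pow_ne_zero _ hc0) e1
    have e2 : (J.map (g : 𝓞 K →+* 𝓞 K)) ^ p = Ideal.span {g α₀} := by
      rw [← Ideal.map_pow, ← hJ, Ideal.map_span, Set.image_singleton]
      rfl
    have e3 : Ideal.span {c} * J.map (g : 𝓞 K →+* 𝓞 K) = Ideal.span {b} * J ^ n := by
      apply ideal_pow_inj K hp.ne_zero
      rw [mul_pow, mul_pow, e2, ← pow_mul, mul_comm n p, pow_mul, ← hJ, Ideal.span_singleton_pow,
        Ideal.span_singleton_pow, Ideal.span_singleton_pow, Ideal.span_singleton_mul_span_singleton,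
        Ideal.span_singleton_mul_span_singleton, mul_comm, e1, mul_comm]
    rw [hpow n (pow_mem hJmem n)]
    show ClassGroup.mulEquiv g (ClassGroup.mk0 ⟨J, hJmem⟩) = _
    rw [ClassGroup.mulEquiv_mk0, ClassGroup.mk0_eq_mk0_iff]
    exact ⟨c, b, hc0, hb0, e3⟩
  have hTx : TCl p K x = x⁻¹ := by
    rw [TCl_apply]
    simp only [hs, ← pow_mul]
    rw [Finset.prod_pow_eq_pow_sum, eq_inv_iff_mul_eq_one, ← pow_succ]
    have h1 : ((∑ d : (ZMod p)ˣ, (d : ZMod p).val ^ 2 * ((d : ZMod p) ^ (p - 3)).val + 1 : ℕ) :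
        ZMod p) = 0 := by
      rw [Nat.cast_add, sum_exponent]; simp
    obtain ⟨k, hk⟩ := (ZMod.natCast_eq_zero_iff _ _).mp h1
    rw [hk, pow_mul, hx, one_pow]
  have hx1 : x = 1 := eq_one_of_T p hp (TCl p K) (exists_pow_eq_TCl p K hT) x hx hTx
  exact (ClassGroup.mk0_eq_one_iff hJmem).mp hx1

end

end CLU

variable (p : ℕ) [Fact p.Prime] (K : Type) [Field K] [NumberField K]
  [IsCyclotomicExtension {p} ℚ K]

theorem CL_exists_unit_mul_pow (hT : stickE p K = 0) (α : K) (hα : α ≠ 0)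
    (hsing : ∃ I : FractionalIdeal (𝓞 K)⁰ K, FractionalIdeal.spanSingleton (𝓞 K)⁰ α = I ^ p)
    (heig : IsEigenTwo p K α) :
    ∃ (ε : (𝓞 K)ˣ) (β : K), α = ((ε : 𝓞 K) : K) * β ^ p := by
  obtain ⟨I, hI⟩ := hsing
  obtain ⟨a, J, ha, rfl⟩ := FractionalIdeal.exists_eq_spanSingleton_mul I
  have haK : algebraMap (𝓞 K) K a ≠ 0 := by simpa using ha
  -- `α * a ^ p` generates `J ^ p`
  have h1 : FractionalIdeal.spanSingleton (𝓞 K)⁰ (α * algebraMap (𝓞 K) K a ^ p)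
      = ((J ^ p : Ideal (𝓞 K)) : FractionalIdeal (𝓞 K)⁰ K) := by
    rw [← FractionalIdeal.spanSingleton_mul_spanSingleton, hI, mul_pow,
      FractionalIdeal.spanSingleton_pow, FractionalIdeal.coeIdeal_pow, mul_comm, ← mul_assoc,
      FractionalIdeal.spanSingleton_mul_spanSingleton, inv_pow,
      mul_inv_cancel₀ (pow_ne_zero _ haK), FractionalIdeal.spanSingleton_one, one_mul]
  have h2 : α * algebraMap (𝓞 K) K a ^ p ∈ ((J ^ p : Ideal (𝓞 K)) : FractionalIdeal (𝓞 K)⁰ K) := by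
    rw [← h1]; exact FractionalIdeal.mem_spanSingleton_self _ _
  obtain ⟨α₀, -, hα₀⟩ := (FractionalIdeal.mem_coeIdeal _).mp h2
  have hα₀0 : α₀ ≠ 0 := by
    rintro rfl
    rw [map_zero] at hα₀
    exact mul_ne_zero hα (pow_ne_zero _ haK) hα₀.symm
  have h3 : Ideal.span {α₀} = J ^ p := by
    apply FractionalIdeal.coeIdeal_injective (K := K)
    show ((Ideal.span {α₀} : Ideal (𝓞 K)) : FractionalIdeal (𝓞 K)⁰ K) = _
    rw [FractionalIdeal.coeIdeal_span_singleton, hα₀, h1]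
  have h4 : IsEigenTwo p K (α₀ : K) := by
    intro d
    obtain ⟨β, hβ⟩ := heig d
    refine ⟨β * sig p K d (algebraMap (𝓞 K) K a) / algebraMap (𝓞 K) K a ^ ((d : ZMod p).val ^ 2), ?_⟩
    show sig p K d (algebraMap (𝓞 K) K α₀) = (algebraMap (𝓞 K) K α₀) ^ _ * _
    rw [hα₀, map_mul, map_pow, hβ, mul_pow, div_pow, mul_pow, ← pow_mul, ← pow_mul,
      mul_comm p ((d : ZMod p).val ^ 2)]
    have ht : algebraMap (𝓞 K) K a ^ ((d : ZMod p).val ^ 2 * p) ≠ 0 := pow_ne_zero _ haK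
    generalize algebraMap (𝓞 K) K a ^ ((d : ZMod p).val ^ 2 * p) = t at ht
    field_simp
  obtain ⟨⟨γ, hγ⟩⟩ := CLU.isPrincipal_of_eigen p K hT α₀ hα₀0 J h3 h4
  have h5 : Ideal.span {α₀} = Ideal.span {γ ^ p} := by
    rw [h3, hγ, ← Ideal.span_singleton_pow]
  obtain ⟨u, hu⟩ := Ideal.span_singleton_eq_span_singleton.mp h5
  refine ⟨u⁻¹, algebraMap (𝓞 K) K γ / algebraMap (𝓞 K) K a, ?_⟩
  have h6 : α₀ = ((u⁻¹ : (𝓞 K)ˣ) : 𝓞 K) * γ ^ p := by
    rw [← hu, mul_comm, mul_assoc, Units.mul_inv, mul_one]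
  have h7 : α * algebraMap (𝓞 K) K a ^ p
      = algebraMap (𝓞 K) K ((u⁻¹ : (𝓞 K)ˣ) : 𝓞 K) * algebraMap (𝓞 K) K γ ^ p := by
    rw [← hα₀, h6, map_mul, map_pow]
  show α = algebraMap (𝓞 K) K ((u⁻¹ : (𝓞 K)ˣ) : 𝓞 K) * _
  rw [div_pow, ← mul_div_assoc, ← h7, mul_div_assoc, div_self (pow_ne_zero _ haK), mul_one]

end Fermat.Agent.S14
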