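/-
S14, CORE_five: glue of the top-level modules (C1)-(C4) of the blueprint.
This file only imports `Defs`; the inputs from the other modules are hypotheses of
`CORE_five_aux`.
-/
import Fermat.Agent.S14.Defs

set_option autoImplicit false

namespace Fermat.Agent.S14

open NumberField JacobiSumStickelberger
open scoped NumberField nonZeroDivisors

namespace Core5

/-- Pure (additive) group theory behind step (C3). -/
theorem add_group_lemma {E : Type*} [AddCommGroup E] (p : ℕ) (hp : p.Prime) (T : AddSubgroup E)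
    (ε η ζ : E) (a b : ℕ) (t u : E) (hab : ¬ (p ∣ a ∧ p ∣ b)) (ht : t ∈ T)
    (h : a • ε + b • η = t + p • u)
    (htors : ∀ t ∈ T, ∃ (j : ℕ) (u : E), t = j • ζ + p • u)
    (hobs : ∀ (k j : ℕ) (w : E), k • η + j • ζ = p • w → p ∣ k ∧ p ∣ j) :
    ∃ (k j : ℕ) (w : E), ε = k • η + j • ζ + p • w := by
  have h' : (a : ℤ) • ε + (b : ℤ) • η = t + (p : ℤ) • u := by exact_mod_cast h
  by_cases hpa : p ∣ a
  · exfalso
    obtain ⟨a₁, rfl⟩ := hpa
    obtain ⟨j, u', hj⟩ := htors (-t) (T.neg_mem ht)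
    have hj' : -t = (j : ℤ) • ζ + (p : ℤ) • u' := by exact_mod_cast hj
    have key : (b : ℤ) • η + (j : ℤ) • ζ = (p : ℤ) • (u - (a₁ : ℤ) • ε - u') := by
      push_cast at h'
      linear_combination (norm := module) h' - hj'
    have key' : b • η + j • ζ = p • (u - (a₁ : ℤ) • ε - u') := by exact_mod_cast key
    exact hab ⟨Dvd.intro a₁ rfl, (hobs b j _ key').1⟩
  · have hcop : IsCoprime (a : ℤ) (p : ℤ) := by
      rw [Nat.isCoprime_iff_coprime]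
      exact ((Nat.Prime.coprime_iff_not_dvd hp).mpr hpa).symm
    obtain ⟨x, y, hxy⟩ := hcop
    obtain ⟨j, u', hj⟩ := htors (x • t) (T.zsmul_mem ht x)
    have hj' : x • t = (j : ℤ) • ζ + (p : ℤ) • u' := by exact_mod_cast hj
    have hp0 : (p : ℤ) ≠ 0 := by exact_mod_cast hp.ne_zero
    set k : ℤ := (-(x * b)) % p with hk
    set z : ℤ := (-(x * b)) / p with hz
    have hkz : k + p * z = -(x * b) := Int.emod_add_mul_ediv _ _
    have hk0 : 0 ≤ k := Int.emod_nonneg _ hp0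
    refine ⟨k.toNat, j, z • η + u' + x • u + y • ε, ?_⟩
    have e1 : ε = (x * a + y * p) • ε := by rw [hxy, one_smul]
    have key : ε = k • η + (j : ℤ) • ζ + (p : ℤ) • (z • η + u' + x • u + y • ε) := by
      have e2 : (x * a + y * p) • ε =
          k • η + (j : ℤ) • ζ + (p : ℤ) • (z • η + u' + x • u + y • ε) := by
        have e3 : (k + p * z) • η = (-(x * b)) • η := by rw [hkz]
        linear_combination (norm := module) x • h' + hj' - e3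
      exact e1.trans e2
    have hkk : (k.toNat : ℤ) = k := Int.toNat_of_nonneg hk0
    rw [← hkk] at key
    exact_mod_cast key

/-- Multiplicative version of `add_group_lemma`. -/
theorem group_lemma {E : Type*} [CommGroup E] (p : ℕ) (hp : p.Prime) (T : Subgroup E)
    (ε η ζ : E) (a b : ℕ) (t u : E) (hab : ¬ (p ∣ a ∧ p ∣ b)) (ht : t ∈ T)
    (h : ε ^ a * η ^ b = t * u ^ p)
    (htors : ∀ t ∈ T, ∃ (j : ℕ) (u : E), t = ζ ^ j * u ^ p)
    (hobs : ∀ (k j : ℕ) (w : E), η ^ k * ζ ^ j = w ^ p → p ∣ k ∧ p ∣ j) :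
    ∃ (k j : ℕ) (w : E), ε = η ^ k * ζ ^ j * w ^ p :=
  add_group_lemma (E := Additive E) p hp (Subgroup.toAddSubgroup T) (Additive.ofMul ε)
    (Additive.ofMul η) (Additive.ofMul ζ) a b (Additive.ofMul t) (Additive.ofMul u) hab ht h
    htors hobs

section NF

variable (p : ℕ) [Fact p.Prime] (K : Type) [Field K] [NumberField K]
  [IsCyclotomicExtension {p} ℚ K]

theorem coe_sigInt (d : (ZMod p)ˣ) (x : 𝓞 K) :
    ((sigInt p K d x : 𝓞 K) : K) = sig p K d (x : K) :=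
  algebraMap_galRestrict_apply ℤ ((cycloGalEquiv p K).symm d) x

omit [IsCyclotomicExtension {p} ℚ K] [Fact p.Prime] [NumberField K] in
/-- An `n`-th root (in `K`) of a unit of `𝓞 K` is a unit of `𝓞 K`. -/
theorem exists_unit_of_pow_eq (n : ℕ) (hn : 0 < n) (w : K) (u : (𝓞 K)ˣ)
    (h : w ^ n = ((u : 𝓞 K) : K)) : ∃ w' : (𝓞 K)ˣ, ((w' : 𝓞 K) : K) = w := by
  have hu0 : ((u : 𝓞 K) : K) ≠ 0 := by
    simp
  have hw0 : w ≠ 0 := by
    rintro rfl
    rw [zero_pow hn.ne'] at h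
    exact hu0 h.symm
  have h1 : IsIntegral ℤ w := by
    refine IsIntegral.of_pow hn ?_
    rw [h]
    exact (u : 𝓞 K).2
  have h2 : IsIntegral ℤ w⁻¹ := by
    refine IsIntegral.of_pow hn ?_
    have : w⁻¹ ^ n = (((u⁻¹ : (𝓞 K)ˣ) : 𝓞 K) : K) := by
      rw [inv_pow, h]
      have h3 : ((u : 𝓞 K) : K) * (((u⁻¹ : (𝓞 K)ˣ) : 𝓞 K) : K) = 1 := by
        rw [← map_mul]
        simp
      exact inv_eq_of_mul_eq_one_right h3
    rw [this]
    exact ((u⁻¹ : (𝓞 K)ˣ) : 𝓞 K).2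
  refine ⟨⟨⟨w, h1⟩, ⟨w⁻¹, h2⟩, ?_, ?_⟩, rfl⟩
  · apply RingOfIntegers.ext
    show w * w⁻¹ = 1
    exact mul_inv_cancel₀ hw0
  · apply RingOfIntegers.ext
    show w⁻¹ * w = 1
    exact inv_mul_cancel₀ hw0

/-- If `α = ε β₀ ^ p` lies in the `ω²`-eigenspace then so does the unit `ε`. -/
theorem isEigenTwoUnit_of_eq (α : K) (hα : α ≠ 0) (heig : IsEigenTwo p K α) (ε : (𝓞 K)ˣ) (β₀ : K)
    (hε : α = ((ε : 𝓞 K) : K) * β₀ ^ p) : IsEigenTwoUnit p K ε := by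
  have hp0 : 0 < p := (Fact.out : p.Prime).pos
  have hβ0 : β₀ ≠ 0 := by
    rintro rfl
    apply hα
    rw [hε, zero_pow hp0.ne', mul_zero]
  have hε0 : ((ε : 𝓞 K) : K) ≠ 0 := by simp
  intro d
  obtain ⟨βd, hβd⟩ := heig d
  set n := (d : ZMod p).val ^ 2 with hn
  have hs0 : sig p K d β₀ ≠ 0 := by simpa using hβ0
  -- the unit `σ_d ε / ε ^ n`
  let v : (𝓞 K)ˣ := Units.map (sigInt p K d : 𝓞 K →* 𝓞 K) ε * (ε ^ n)⁻¹
  have hv : ((v : 𝓞 K) : K) * ((ε : 𝓞 K) : K) ^ n = sig p K d ((ε : 𝓞 K) : K) := by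
    rw [← coe_sigInt, ← map_pow, ← map_mul]
    congr 1
    have : v * ε ^ n = Units.map (sigInt p K d : 𝓞 K →* 𝓞 K) ε := by
      simp [v]
    have h2 := congrArg (fun u : (𝓞 K)ˣ => (u : 𝓞 K)) this
    simpa using h2
  have hrel : sig p K d ((ε : 𝓞 K) : K) * sig p K d β₀ ^ p =
      (((ε : 𝓞 K) : K) * β₀ ^ p) ^ n * βd ^ p := by
    rw [← hε, ← hβd, hε, map_mul, map_pow]
  have hw : (β₀ ^ n * βd / sig p K d β₀) ^ p = ((v : 𝓞 K) : K) := by
    have h3 : ((v : 𝓞 K) : K) * ((ε : 𝓞 K) : K) ^ n * sig p K d β₀ ^ p =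
        (((ε : 𝓞 K) : K) * β₀ ^ p) ^ n * βd ^ p := by rw [hv, hrel]
    have hεn : ((ε : 𝓞 K) : K) ^ n ≠ 0 := pow_ne_zero _ hε0
    have h4 : ((v : 𝓞 K) : K) * sig p K d β₀ ^ p = (β₀ ^ n * βd) ^ p := by
      apply mul_left_cancel₀ hεn
      linear_combination h3
    rw [div_pow, ← h4]
    field_simp
  obtain ⟨w', hw'⟩ := exists_unit_of_pow_eq K p hp0 _ v hw
  refine ⟨w', ?_⟩
  apply RingOfIntegers.ext
  rw [coe_sigInt]
  have e : (((ε : 𝓞 K) ^ n * (w' : 𝓞 K) ^ p : 𝓞 K) : K) =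
      ((ε : 𝓞 K) : K) ^ n * ((w' : 𝓞 K) : K) ^ p := by
    simp only [RingOfIntegers.coe_eq_algebraMap, map_mul, map_pow]
  rw [e, hw', hw, ← hv]
  ring

theorem zetaInt_isUnit : IsUnit (zetaInt p K) :=
  (IsCyclotomicExtension.zeta_spec p ℚ K).toInteger_isPrimitiveRoot.isUnit
    (Fact.out : p.Prime).ne_zero

end NF

end Core5

section

variable (p : ℕ) [Fact p.Prime] (K : Type) [Field K] [NumberField K]
  [IsCyclotomicExtension {p} ℚ K]

open Core5 in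
/-- `CORE_five` with the inputs of the other modules as hypotheses. -/
theorem CORE_five_aux (M : Type) [Field M] [Algebra K M] (A : M) (α : K) (hα : α ≠ 0)
    (hA : A ^ p = algebraMap K M α) (heig : IsEigenTwo p K α)
    (hCLU : ∃ (ε : (𝓞 K)ˣ) (β : K), α = ((ε : 𝓞 K) : K) * β ^ p)
    (hU1 : ∀ ε₁ ε₂ : (𝓞 K)ˣ, IsEigenTwoUnit p K ε₁ → IsEigenTwoUnit p K ε₂ →
      ∃ (a b : ℕ) (t u : (𝓞 K)ˣ), ¬ (p ∣ a ∧ p ∣ b) ∧ t ∈ NumberField.Units.torsion K ∧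
        ε₁ ^ a * ε₂ ^ b = t * u ^ p)
    (hηu : IsUnit (eta p K)) (hηe : IsEigenTwoUnit p K hηu.unit)
    (hobs : ∀ (k j : ℕ) (m : ℤ),
      eta p K ^ k * zetaInt p K ^ j - (m : 𝓞 K) ∈ pp p K ^ 3 → p ∣ k ∧ p ∣ j)
    (hpow : ∀ x : 𝓞 K, ∃ m : ℤ, x ^ p - (m : 𝓞 K) ∈ pp p K ^ 3)
    (htors : ∀ t : (𝓞 K)ˣ, t ∈ NumberField.Units.torsion K →
      ∃ (j : ℕ) (u : (𝓞 K)ˣ), (t : 𝓞 K) = zetaInt p K ^ j * (u : 𝓞 K) ^ p)
    (hcongr : ∀ (B : M) (θ : 𝓞 K), B ^ p = algebraMap K M (θ : K) →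
      ∃ m : ℤ, θ - (m : 𝓞 K) ∈ pp p K ^ 3) :
    ∃ β : K, α = β ^ p := by
  have hpp : p.Prime := Fact.out
  obtain ⟨ε, β₀, hε⟩ := hCLU
  have hβ0 : β₀ ≠ 0 := by
    rintro rfl
    apply hα
    rw [hε, zero_pow hpp.ne_zero, mul_zero]
  have hεe := isEigenTwoUnit_of_eq p K α hα heig ε β₀ hε
  obtain ⟨a, b, t, u, hab, ht, habtu⟩ := hU1 ε hηu.unit hεe hηe
  set ηu : (𝓞 K)ˣ := hηu.unit with hηudef
  set ζu : (𝓞 K)ˣ := (zetaInt_isUnit p K).unit with hζudef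
  have hηc : (ηu : 𝓞 K) = eta p K := hηu.unit_spec
  have hζc : (ζu : 𝓞 K) = zetaInt p K := (zetaInt_isUnit p K).unit_spec
  obtain ⟨k, j, w, hkjw⟩ := group_lemma p hpp (NumberField.Units.torsion K) ε ηu ζu a b t u hab ht
    habtu
    (by
      intro t ht
      obtain ⟨j, u, hju⟩ := htors t ht
      refine ⟨j, u, Units.ext ?_⟩
      rw [hju]; simp [hζc])
    (by
      intro k j w hw
      obtain ⟨m, hm⟩ := hpow (w : 𝓞 K)
      apply hobs k j m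
      have h2 := congrArg (fun u : (𝓞 K)ˣ => (u : 𝓞 K)) hw
      simp only [Units.val_mul, Units.val_pow_eq_pow_val, hηc, hζc] at h2
      rw [h2]; exact hm)
  have hεval : (ε : 𝓞 K) = eta p K ^ k * zetaInt p K ^ j * (w : 𝓞 K) ^ p := by
    have h2 := congrArg (fun u : (𝓞 K)ˣ => (u : 𝓞 K)) hkjw
    simpa only [Units.val_mul, Units.val_pow_eq_pow_val, hηc, hζc] using h2
  have hw0 : ((w : 𝓞 K) : K) ≠ 0 := by simp
  have hc0 : algebraMap K M (((w : 𝓞 K) : K) * β₀) ≠ 0 := by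
    simpa using hβ0
  have hαθ : α = ((eta p K ^ k * zetaInt p K ^ j : 𝓞 K) : K) * (((w : 𝓞 K) : K) * β₀) ^ p := by
    rw [hε, hεval]
    simp only [RingOfIntegers.coe_eq_algebraMap, map_mul, map_pow]
    ring
  have hB : (A / algebraMap K M (((w : 𝓞 K) : K) * β₀)) ^ p =
      algebraMap K M ((eta p K ^ k * zetaInt p K ^ j : 𝓞 K) : K) := by
    rw [div_pow, hA, hαθ, map_mul (algebraMap K M), map_pow (algebraMap K M)]
    field_simp
  obtain ⟨m, hm⟩ := hcongr _ _ hB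
  obtain ⟨⟨k₁, rfl⟩, ⟨j₁, rfl⟩⟩ := hobs k j m hm
  refine ⟨((eta p K ^ k₁ * zetaInt p K ^ j₁ : 𝓞 K) : K) * (((w : 𝓞 K) : K) * β₀), ?_⟩
  rw [hαθ]
  simp only [RingOfIntegers.coe_eq_algebraMap, map_mul, map_pow]
  ring

end

end Fermat.Agent.S14
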