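import Fermat.Agent.S14.U1.Units
import Fermat.Agent.S14.U1.LinAlg

/-! # S14/U1: the `ω²`-eigenspace of `E / (torsion · E^p)` has dimension at most one -/

set_option autoImplicit false

namespace Fermat.Agent.S14

open NumberField JacobiSumStickelberger
open scoped NumberField nonZeroDivisors

variable (p : ℕ) [Fact p.Prime] (K : Type) [Field K] [NumberField K]
  [IsCyclotomicExtension {p} ℚ K]

open U1 in
theorem U1_eigen_dim_le_one (hp5 : 5 ≤ p) (ε₁ ε₂ : (𝓞 K)ˣ)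
    (h₁ : IsEigenTwoUnit p K ε₁) (h₂ : IsEigenTwoUnit p K ε₂) :
    ∃ (a b : ℕ) (t u : (𝓞 K)ˣ), ¬ (p ∣ a ∧ p ∣ b) ∧ t ∈ NumberField.Units.torsion K ∧
      ε₁ ^ a * ε₂ ^ b = t * u ^ p := by
  obtain ⟨d, hd⟩ := IsCyclic.exists_generator (α := (ZMod p)ˣ)
  obtain ⟨m, hm⟩ := exists_cyclic_vector K hp5 d hd
  have h2n := two_mul_half hp5
  have hchar := charpoly_eq_geom_sum ((p - 1) / 2) (by omega) (finrank_MT_eq K hp5) (gM p K d)
    (sum_gM_pow K hp5 d hd) m hm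
  have hpn : ¬ p ∣ (p - 1) / 2 := Nat.not_dvd_of_pos_of_lt (by omega) (by omega)
  have key : ∀ ε : (𝓞 K)ˣ, IsEigenTwoUnit p K ε → ∃ m' : MT K,
      gM p K d (toM ε) = (((d : ZMod p).val ^ 2 : ℕ) : ℤ) • toM ε + p • m' := by
    intro ε h
    obtain ⟨u, hu⟩ := h d
    refine ⟨toM u, ?_⟩
    have h3 : sigU p K d ε = ε ^ ((d : ZMod p).val ^ 2) * u ^ p := by
      ext
      rw [coe_sigU, hu]
      simp
    rw [gM_toM, h3, toM_mul, toM_pow, toM_pow, natCast_zsmul]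
  obtain ⟨a, b, m', hab, h⟩ := eigen_dependent p ((p - 1) / 2) hpn (gM p K d) hchar _
    (toM ε₁) (toM ε₂) (key ε₁ h₁) (key ε₂ h₂)
  obtain ⟨u, rfl⟩ := toM_surjective m'
  refine ⟨a, b, ε₁ ^ a * ε₂ ^ b * (u ^ p)⁻¹, u, hab, ?_, by rw [inv_mul_cancel_right]⟩
  have h4 : toM (ε₁ ^ a * ε₂ ^ b * (u ^ p)⁻¹) + toM (u ^ p) = toM (u ^ p) := by
    rw [← toM_mul, inv_mul_cancel_right, toM_mul, toM_pow, toM_pow, toM_pow, h]
  rw [← toM_eq_zero_iff]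
  exact add_eq_right.mp h4

end Fermat.Agent.S14
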