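/-
S14, CORE_five (wiring of `CORE_five_aux` with the modules RAM, CL, U1, U2).
-/
import Fermat.Agent.S14.Core5Aux
import Fermat.Agent.S14.RAM
import Fermat.Agent.S14.CLT
import Fermat.Agent.S14.CLU
import Fermat.Agent.S14.U1
import Fermat.Agent.S14.U2

set_option autoImplicit false

namespace Fermat.Agent.S14

open NumberField JacobiSumStickelberger
open scoped NumberField nonZeroDivisors

variable (p : ℕ) [Fact p.Prime] (K : Type) [Field K] [NumberField K]
  [IsCyclotomicExtension {p} ℚ K]

theorem CORE_five (hp5 : 5 ≤ p) (M : Type) [Field M] [NumberField M] [Algebra K M] [IsGalois K M]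
    (hunr : InertiaTrivial K M) (A : M) (α : K) (hα : α ≠ 0) (hA : A ^ p = algebraMap K M α)
    (heig : IsEigenTwo p K α) : ∃ β : K, α = β ^ p :=
  have hp3 : 3 ≤ p := le_trans (by norm_num) hp5
  CORE_five_aux p K M A α hα hA heig
    (CL_exists_unit_mul_pow p K (CL_stickE_eq_zero p K hp5) α hα
      (RAM_singular p K M hunr A α hα hA) heig)
    (fun ε₁ ε₂ h₁ h₂ => U1_eigen_dim_le_one p K hp5 ε₁ ε₂ h₁ h₂)
    (U2_eta_isUnit p K) (U2_eta_eigen p K hp5)
    (fun k j m h => U2_local_obstruction p K hp5 k j m h)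
    (fun x => U2_pow_congr p K hp3 x)
    (fun t ht => U2_torsion p K hp3 t ht)
    (fun B θ hB => RAM_congr p K hp3 M hunr B θ hB)

end Fermat.Agent.S14
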